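import Fermat.Agent.S11.Kummer.Generic
import Fermat.Agent.S11.Kummer.Explicit

/-!
# Kummer's lemma for `p ∈ {5, 7, 11, 13}`

Let `K` be the `p`-th cyclotomic field with `p ∈ {5, 7, 11, 13}`. Every unit of `𝓞 K` which is
congruent to a rational integer modulo `p` is a `p`-th power of a unit.

The proof is elementary: Dirichlet's unit theorem bounds `[E : E ^ p]` by `p ^ ((p - 1) / 2)`,
and explicit (real cyclotomic) units show that the filtration of `E` by the subgroups of units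
congruent to an integer modulo `(ζ - 1) ^ k` has at least `(p - 1) / 2` jumps below level `p - 1`.
-/

namespace Fermat.Agent.S11

open NumberField

theorem kummer_lemma_five {K : Type*} [Field K] [NumberField K] [Fact (Nat.Prime 5)]
    [IsCyclotomicExtension {5} ℚ K] (u : (𝓞 K)ˣ)
    (hcong : ∃ n : ℤ, ((5 : ℕ) : 𝓞 K) ∣ (u : 𝓞 K) - n) : ∃ v : (𝓞 K)ˣ, u = v ^ 5 := by
  have hζ := IsCyclotomicExtension.zeta_spec 5 ℚ K
  refine kummer_of_level_units hζ (by norm_num) {1, 2} (by decide) ?_ u hcong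
  intro k hk
  simp only [Finset.mem_insert, Finset.mem_singleton] at hk
  rcases hk with rfl | rfl
  · exact ⟨by norm_num, kummer_level_one hζ (by norm_num)⟩
  · exact ⟨by norm_num, kummer_level_five_2 hζ⟩

theorem kummer_lemma_seven {K : Type*} [Field K] [NumberField K] [Fact (Nat.Prime 7)]
    [IsCyclotomicExtension {7} ℚ K] (u : (𝓞 K)ˣ)
    (hcong : ∃ n : ℤ, ((7 : ℕ) : 𝓞 K) ∣ (u : 𝓞 K) - n) : ∃ v : (𝓞 K)ˣ, u = v ^ 7 := by
  have hζ := IsCyclotomicExtension.zeta_spec 7 ℚ K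
  refine kummer_of_level_units hζ (by norm_num) {1, 2, 4} (by decide) ?_ u hcong
  intro k hk
  simp only [Finset.mem_insert, Finset.mem_singleton] at hk
  rcases hk with rfl | rfl | rfl
  · exact ⟨by norm_num, kummer_level_one hζ (by norm_num)⟩
  · exact ⟨by norm_num, kummer_level_seven_2 hζ⟩
  · exact ⟨by norm_num, kummer_level_seven_4 hζ⟩

theorem kummer_lemma_eleven {K : Type*} [Field K] [NumberField K] [Fact (Nat.Prime 11)]
    [IsCyclotomicExtension {11} ℚ K] (u : (𝓞 K)ˣ)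
    (hcong : ∃ n : ℤ, ((11 : ℕ) : 𝓞 K) ∣ (u : 𝓞 K) - n) : ∃ v : (𝓞 K)ˣ, u = v ^ 11 := by
  have hζ := IsCyclotomicExtension.zeta_spec 11 ℚ K
  refine kummer_of_level_units hζ (by norm_num) {1, 2, 4, 6, 8} (by decide) ?_ u hcong
  intro k hk
  simp only [Finset.mem_insert, Finset.mem_singleton] at hk
  rcases hk with rfl | rfl | rfl | rfl | rfl
  · exact ⟨by norm_num, kummer_level_one hζ (by norm_num)⟩
  · exact ⟨by norm_num, kummer_level_eleven_2 hζ⟩
  · exact ⟨by norm_num, kummer_level_eleven_4 hζ⟩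
  · exact ⟨by norm_num, kummer_level_eleven_6 hζ⟩
  · exact ⟨by norm_num, kummer_level_eleven_8 hζ⟩

theorem kummer_lemma_thirteen {K : Type*} [Field K] [NumberField K] [Fact (Nat.Prime 13)]
    [IsCyclotomicExtension {13} ℚ K] (u : (𝓞 K)ˣ)
    (hcong : ∃ n : ℤ, ((13 : ℕ) : 𝓞 K) ∣ (u : 𝓞 K) - n) : ∃ v : (𝓞 K)ˣ, u = v ^ 13 := by
  have hζ := IsCyclotomicExtension.zeta_spec 13 ℚ K
  refine kummer_of_level_units hζ (by norm_num) {1, 2, 4, 6, 8, 10} (by decide) ?_ u hcong
  intro k hk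
  simp only [Finset.mem_insert, Finset.mem_singleton] at hk
  rcases hk with rfl | rfl | rfl | rfl | rfl | rfl
  · exact ⟨by norm_num, kummer_level_one hζ (by norm_num)⟩
  · exact ⟨by norm_num, kummer_level_thirteen_2 hζ⟩
  · exact ⟨by norm_num, kummer_level_thirteen_4 hζ⟩
  · exact ⟨by norm_num, kummer_level_thirteen_6 hζ⟩
  · exact ⟨by norm_num, kummer_level_thirteen_8 hζ⟩
  · exact ⟨by norm_num, kummer_level_thirteen_10 hζ⟩

/-- **Kummer's lemma** for `p ∈ {5, 7, 11, 13}`: a unit of the `p`-th cyclotomic ring of integers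
which is congruent to a rational integer modulo `p` is a `p`-th power. -/
theorem kummer_lemma {p : ℕ} [Fact p.Prime] (hp : p = 5 ∨ p = 7 ∨ p = 11 ∨ p = 13)
    {K : Type*} [Field K] [NumberField K] [IsCyclotomicExtension {p} ℚ K]
    (u : (𝓞 K)ˣ) (hcong : ∃ n : ℤ, (p : 𝓞 K) ∣ (u : 𝓞 K) - n) : ∃ v : (𝓞 K)ˣ, u = v ^ p := by
  rcases hp with rfl | rfl | rfl | rfl
  · exact kummer_lemma_five u hcong
  · exact kummer_lemma_seven u hcong
  · exact kummer_lemma_eleven u hcong
  · exact kummer_lemma_thirteen u hcong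

end Fermat.Agent.S11
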