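import Fermat.Agent.S11.PIDGeneric

set_option autoImplicit false
set_option linter.style.haveILetI false

open NumberField Polynomial InfinitePlace Nat Real Ideal IsCyclotomicExtension.Rat

namespace Fermat.Agent.S11.PID

theorem minkowski_seven (K : Type*) [Field K] [NumberField K] [IsCyclotomicExtension {7} ℚ K] :
    ⌊(4 / π) ^ nrComplexPlaces K *
      ((Module.finrank ℚ K)! / (Module.finrank ℚ K) ^ (Module.finrank ℚ K) * √|discr K|)⌋₊
      ≤ 4 := by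
  have : Fact (Nat.Prime 7) := ⟨by norm_num⟩
  rw [IsCyclotomicExtension.Rat.discr_prime 7 K, IsCyclotomicExtension.finrank (n := 7) K
    (cyclotomic.irreducible_rat (by simp)),
    IsCyclotomicExtension.Rat.nrComplexPlaces_eq_totient_div_two 7,
    totient_prime (by norm_num : Nat.Prime 7)]
  have hs : √|((((-1) ^ ((7 - 1) / 2) * (7 : ℕ) ^ (7 - 2) : ℤ)) : ℝ)| < 130 := by
    rw [Real.sqrt_lt' (by norm_num)]
    norm_num
  have hs0 : 0 ≤ √|((((-1) ^ ((7 - 1) / 2) * (7 : ℕ) ^ (7 - 2) : ℤ)) : ℝ)| :=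
    Real.sqrt_nonneg _
  have hfac : ((7 - 1)! : ℝ) / ((7 - 1 : ℕ) : ℝ) ^ (7 - 1) = 720 / 46656 := by
    norm_num [Nat.factorial]
  have hpow : ((4 : ℝ) / π) ^ ((7 - 1) / 2) < 1.2733 ^ ((7 - 1) / 2) :=
    pow_lt_pow_left₀ four_div_pi_lt four_div_pi_pos.le (by norm_num)
  have hpow0 : (0 : ℝ) < ((4 : ℝ) / π) ^ ((7 - 1) / 2) := by positivity
  apply Nat.le_of_lt_succ
  rw [Nat.floor_lt (by positivity)]
  rw [hfac]
  calc ((4 : ℝ) / π) ^ ((7 - 1) / 2) * (720 / 46656 *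
        √|((((-1) ^ ((7 - 1) / 2) * (7 : ℕ) ^ (7 - 2) : ℤ)) : ℝ)|)
      ≤ 1.2733 ^ ((7 - 1) / 2) * (720 / 46656 * 130) := by gcongr
    _ < ((4 + 1 : ℕ) : ℝ) := by norm_num

theorem order_check_seven (q : ℕ) (hq : q ≤ 4) (hqp : q.Prime) :
    ∃ k, (∀ j < k, 0 < j → ((q : ℕ) : ZMod 7) ^ j ≠ 1) ∧ 4 < q ^ k := by
  interval_cases q <;>
    first
    | (exfalso; revert hqp; norm_num; done)
    | (refine ⟨2, ?_, ?_⟩ <;> [decide; (norm_num; done)])
    | (refine ⟨3, ?_, ?_⟩ <;> [decide; (norm_num; done)])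

theorem pid_seven (K : Type*) [Field K] [NumberField K] [IsCyclotomicExtension {7} ℚ K] :
    IsPrincipalIdealRing (𝓞 K) := by
  haveI : Fact (Nat.Prime 7) := ⟨by norm_num⟩
  haveI : IsGalois ℚ K := IsCyclotomicExtension.isGalois {7} ℚ K
  refine RingOfIntegers.isPrincipalIdealRing_of_isPrincipal_of_lt_or_isPrincipal_of_mem_primesOver_of_mem_Icc ?_
  intro q hq hqp
  have hB := minkowski_seven K
  rw [Finset.mem_Icc] at hq
  have hq4 : q ≤ 4 := hq.2.trans hB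
  haveI : Fact q.Prime := ⟨hqp⟩
  have h7 : q ≠ 7 := by omega
  obtain ⟨k, hk, hBk⟩ := order_check_seven q hq4 hqp
  obtain ⟨P, hP, h⟩ := exists_primesOver_lt_pow 7 K q h7 4 k hk hBk
  exact ⟨P, hP, Or.inl (lt_of_le_of_lt hB h)⟩

end Fermat.Agent.S11.PID
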