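import Fermat.Agent.S11.PIDGeneric

set_option autoImplicit false
set_option linter.style.haveILetI false

open NumberField Polynomial InfinitePlace Nat Real Ideal IsCyclotomicExtension.Rat

namespace Fermat.Agent.S11.PID

theorem minkowski_thirteen (K : Type*) [Field K] [NumberField K]
    [IsCyclotomicExtension {13} ℚ K] :
    ⌊(4 / π) ^ nrComplexPlaces K *
      ((Module.finrank ℚ K)! / (Module.finrank ℚ K) ^ (Module.finrank ℚ K) * √|discr K|)⌋₊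
      ≤ 306 := by
  have : Fact (Nat.Prime 13) := ⟨by norm_num⟩
  rw [IsCyclotomicExtension.Rat.discr_prime 13 K, IsCyclotomicExtension.finrank (n := 13) K
    (cyclotomic.irreducible_rat (by simp)),
    IsCyclotomicExtension.Rat.nrComplexPlaces_eq_totient_div_two 13,
    totient_prime (by norm_num : Nat.Prime 13)]
  have hs : √|((((-1) ^ ((13 - 1) / 2) * (13 : ℕ) ^ (13 - 2) : ℤ)) : ℝ)| < 1338926 := by
    rw [Real.sqrt_lt' (by norm_num)]
    norm_num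
  have hs0 : 0 ≤ √|((((-1) ^ ((13 - 1) / 2) * (13 : ℕ) ^ (13 - 2) : ℤ)) : ℝ)| :=
    Real.sqrt_nonneg _
  have hfac : ((13 - 1)! : ℝ) / ((13 - 1 : ℕ) : ℝ) ^ (13 - 1) = 479001600 / 8916100448256 := by
    norm_num [Nat.factorial]
  have hpow : ((4 : ℝ) / π) ^ ((13 - 1) / 2) < 1.2733 ^ ((13 - 1) / 2) :=
    pow_lt_pow_left₀ four_div_pi_lt four_div_pi_pos.le (by norm_num)
  have hpow0 : (0 : ℝ) < ((4 : ℝ) / π) ^ ((13 - 1) / 2) := by positivity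
  apply Nat.le_of_lt_succ
  rw [Nat.floor_lt (by positivity)]
  rw [hfac]
  calc ((4 : ℝ) / π) ^ ((13 - 1) / 2) * (479001600 / 8916100448256 *
        √|((((-1) ^ ((13 - 1) / 2) * (13 : ℕ) ^ (13 - 2) : ℤ)) : ℝ)|)
      ≤ 1.2733 ^ ((13 - 1) / 2) * (479001600 / 8916100448256 * 1338926) := by gcongr
    _ < ((306 + 1 : ℕ) : ℝ) := by norm_num

theorem order_check_thirteen (q : ℕ) (hq : q ≤ 306) (hqp : q.Prime) (h13 : q ≠ 13)
    (h3 : q ≠ 3) (h53 : q ≠ 53) (h79 : q ≠ 79) (h131 : q ≠ 131) (h157 : q ≠ 157) :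
    ∃ k, (∀ j < k, 0 < j → ((q : ℕ) : ZMod 13) ^ j ≠ 1) ∧ 306 < q ^ k := by
  interval_cases q <;>
    first
    | (exfalso; revert hqp; norm_num; done)
    | (exfalso; exact h13 rfl)
    | (exfalso; exact h3 rfl)
    | (exfalso; exact h53 rfl)
    | (exfalso; exact h79 rfl)
    | (exfalso; exact h131 rfl)
    | (exfalso; exact h157 rfl)
    | (refine ⟨2, ?_, ?_⟩ <;> [decide; (norm_num; done)])
    | (refine ⟨3, ?_, ?_⟩ <;> [decide; (norm_num; done)])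
    | (refine ⟨4, ?_, ?_⟩ <;> [decide; (norm_num; done)])
    | (refine ⟨9, ?_, ?_⟩ <;> [decide; (norm_num; done)])

theorem root_53_13 : ∑ i ∈ Finset.range 13, (((16 : ℤ) : ZMod 53)) ^ i = 0 := by decide

theorem exists_over_53_thirteen (K : Type*) [Field K] [NumberField K]
    [IsCyclotomicExtension {13} ℚ K] :
    ∃ P ∈ primesOver (span {((53 : ℕ) : ℤ)}) (𝓞 K), Submodule.IsPrincipal P := by
  haveI : Fact (Nat.Prime 13) := ⟨by norm_num⟩
  haveI : Fact (Nat.Prime 53) := ⟨by norm_num⟩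
  have hΦ := zeta_geom_sum_eq_zero 13 K
  simp only [Finset.sum_range_succ, Finset.sum_range_zero, pow_zero, pow_one, zero_add] at hΦ
  set ζ := (IsCyclotomicExtension.zeta_spec 13 ℚ K).toInteger with hζ
  refine exists_primesOver_isPrincipal_of_data 13 K 53 16 root_53_13
    ((1) + (-1) * ζ + (1) * ζ ^ 3)
    ((25) + (10) * ζ + (19) * ζ ^ 2 + (3) * ζ ^ 3 + (2) * ζ ^ 4 + (-8) * ζ ^ 5 + (-2) * ζ ^ 6
      + (5) * ζ ^ 7 + (22) * ζ ^ 8 + (33) * ζ ^ 9 + (37) * ζ ^ 10 + (24) * ζ ^ 11)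
    ((-8) + (-3) * ζ + (-6) * ζ ^ 2 + (-1) * ζ ^ 3 + (-1) * ζ ^ 4 + (2) * ζ ^ 5 + (-2) * ζ ^ 7
      + (-7) * ζ ^ 8 + (-10) * ζ ^ 9 + (-11) * ζ ^ 10 + (-7) * ζ ^ 11)
    ((255) + (16) * ζ + (1) * ζ ^ 2) (77) ?_ ?_ ?_
  · push_cast
    ring
  · push_cast
    linear_combination ((-28) + (13) * ζ + (24) * ζ ^ 2) * hΦ
  · push_cast
    linear_combination ((8) + (-4) * ζ + (-7) * ζ ^ 2) * hΦ

theorem root_79_13 : ∑ i ∈ Finset.range 13, (((62 : ℤ) : ZMod 79)) ^ i = 0 := by decide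

theorem exists_over_79_thirteen (K : Type*) [Field K] [NumberField K]
    [IsCyclotomicExtension {13} ℚ K] :
    ∃ P ∈ primesOver (span {((79 : ℕ) : ℤ)}) (𝓞 K), Submodule.IsPrincipal P := by
  haveI : Fact (Nat.Prime 13) := ⟨by norm_num⟩
  haveI : Fact (Nat.Prime 79) := ⟨by norm_num⟩
  have hΦ := zeta_geom_sum_eq_zero 13 K
  simp only [Finset.sum_range_succ, Finset.sum_range_zero, pow_zero, pow_one, zero_add] at hΦ
  set ζ := (IsCyclotomicExtension.zeta_spec 13 ℚ K).toInteger with hζ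
  refine exists_primesOver_isPrincipal_of_data 13 K 79 62 root_79_13
    ((1) + (-1) * ζ + (-1) * ζ ^ 4)
    ((62) + (63) * ζ + (49) * ζ ^ 2 + (8) * ζ ^ 3 + (29) * ζ ^ 4 + (51) * ζ ^ 5 + (59) * ζ ^ 6
      + (26) * ζ ^ 7 + (14) * ζ ^ 8 + (24) * ζ ^ 9 + (42) * ζ ^ 10 + (27) * ζ ^ 11)
    ((-49) + (-49) * ζ + (-38) * ζ ^ 2 + (-6) * ζ ^ 3 + (-23) * ζ ^ 4 + (-40) * ζ ^ 5
      + (-46) * ζ ^ 6 + (-20) * ζ ^ 7 + (-11) * ζ ^ 8 + (-19) * ζ ^ 9 + (-33) * ζ ^ 10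
      + (-21) * ζ ^ 11)
    ((-238329) + (-3844) * ζ + (-62) * ζ ^ 2 + (-1) * ζ ^ 3) (-187043) ?_ ?_ ?_
  · push_cast
    ring
  · push_cast
    linear_combination ((-17) + (18) * ζ + (-15) * ζ ^ 2 + (-27) * ζ ^ 3) * hΦ
  · push_cast
    linear_combination ((13) + (-14) * ζ + (12) * ζ ^ 2 + (21) * ζ ^ 3) * hΦ

theorem root_131_13 : ∑ i ∈ Finset.range 13, (((80 : ℤ) : ZMod 131)) ^ i = 0 := by decide

theorem exists_over_131_thirteen (K : Type*) [Field K] [NumberField K]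
    [IsCyclotomicExtension {13} ℚ K] :
    ∃ P ∈ primesOver (span {((131 : ℕ) : ℤ)}) (𝓞 K), Submodule.IsPrincipal P := by
  haveI : Fact (Nat.Prime 13) := ⟨by norm_num⟩
  haveI : Fact (Nat.Prime 131) := ⟨by norm_num⟩
  have hΦ := zeta_geom_sum_eq_zero 13 K
  simp only [Finset.sum_range_succ, Finset.sum_range_zero, pow_zero, pow_one, zero_add] at hΦ
  set ζ := (IsCyclotomicExtension.zeta_spec 13 ℚ K).toInteger with hζ
  refine exists_primesOver_isPrincipal_of_data 13 K 131 80 root_131_13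
    ((1) + (-1) * ζ + (-1) * ζ ^ 3)
    ((111) + (78) * ζ + (17) * ζ ^ 2 + (67) * ζ ^ 3 + (84) * ζ ^ 4 + (40) * ζ ^ 5
      + (46) * ζ ^ 6 + (69) * ζ ^ 7 + (48) * ζ ^ 8 + (33) * ζ ^ 9 + (41) * ζ ^ 10
      + (28) * ζ ^ 11)
    ((-68) + (-47) * ζ + (-10) * ζ ^ 2 + (-41) * ζ ^ 3 + (-51) * ζ ^ 4 + (-24) * ζ ^ 5
      + (-28) * ζ ^ 6 + (-42) * ζ ^ 7 + (-29) * ζ ^ 8 + (-20) * ζ ^ 9 + (-25) * ζ ^ 10
      + (-17) * ζ ^ 11)
    ((-6401) + (-80) * ζ + (-1) * ζ ^ 2) (-3909) ?_ ?_ ?_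
  · push_cast
    ring
  · push_cast
    linear_combination ((-20) + (-13) * ζ + (-28) * ζ ^ 2) * hΦ
  · push_cast
    linear_combination ((12) + (8) * ζ + (17) * ζ ^ 2) * hΦ

theorem root_157_13 : ∑ i ∈ Finset.range 13, (((75 : ℤ) : ZMod 157)) ^ i = 0 := by decide

theorem exists_over_157_thirteen (K : Type*) [Field K] [NumberField K]
    [IsCyclotomicExtension {13} ℚ K] :
    ∃ P ∈ primesOver (span {((157 : ℕ) : ℤ)}) (𝓞 K), Submodule.IsPrincipal P := by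
  haveI : Fact (Nat.Prime 13) := ⟨by norm_num⟩
  haveI : Fact (Nat.Prime 157) := ⟨by norm_num⟩
  have hΦ := zeta_geom_sum_eq_zero 13 K
  simp only [Finset.sum_range_succ, Finset.sum_range_zero, pow_zero, pow_one, zero_add] at hΦ
  set ζ := (IsCyclotomicExtension.zeta_spec 13 ℚ K).toInteger with hζ
  refine exists_primesOver_isPrincipal_of_data 13 K 157 75 root_157_13
    ((1) + (-1) * ζ + (1) * ζ ^ 2 + (1) * ζ ^ 4)
    ((89) + (86) * ζ + (42) * ζ ^ 2 + (77) * ζ ^ 3 + (67) * ζ ^ 4 + (25) * ζ ^ 5 + (37) * ζ ^ 6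
      + (56) * ζ ^ 7 + (73) * ζ ^ 8 + (113) * ζ ^ 9 + (124) * ζ ^ 10 + (76) * ζ ^ 11)
    ((-43) + (-41) * ζ + (-20) * ζ ^ 2 + (-37) * ζ ^ 3 + (-32) * ζ ^ 4 + (-12) * ζ ^ 5
      + (-18) * ζ ^ 6 + (-27) * ζ ^ 7 + (-35) * ζ ^ 8 + (-54) * ζ ^ 9 + (-59) * ζ ^ 10
      + (-36) * ζ ^ 11)
    ((421949) + (5626) * ζ + (75) * ζ ^ 2 + (1) * ζ ^ 3) (201568) ?_ ?_ ?_
  · push_cast
    ring
  · push_cast
    linear_combination ((-68) + (65) * ζ + (48) * ζ ^ 2 + (76) * ζ ^ 3) * hΦ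
  · push_cast
    linear_combination ((32) + (-31) * ζ + (-23) * ζ ^ 2 + (-36) * ζ ^ 3) * hΦ


theorem cubic_mod_three_no_root : ∀ x : ZMod 3, x ^ 3 - x - 1 ≠ 0 := by decide

theorem irreducible_cubic_mod_three : Irreducible (X ^ 3 - X - 1 : (ZMod 3)[X]) := by
  haveI : Fact (Nat.Prime 3) := ⟨by norm_num⟩
  have hdeg : (X ^ 3 - X - 1 : (ZMod 3)[X]).natDegree = 3 := by
    compute_degree!
  apply irreducible_of_degree_le_three_of_not_isRoot
  · rw [hdeg]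
    simp
  · intro x
    rw [IsRoot.def]
    simp only [eval_sub, eval_pow, eval_X, eval_one]
    exact cubic_mod_three_no_root x

theorem monic_cubic_mod_three : (X ^ 3 - X - 1 : (ZMod 3)[X]).Monic := by
  monicity!

theorem cubic_dvd_cyclotomic_mod_three :
    (X ^ 3 - X - 1 : (ZMod 3)[X]) ∣ (cyclotomic 13 ℤ).map (Int.castRingHom (ZMod 3)) := by
  haveI : Fact (Nat.Prime 13) := ⟨by norm_num⟩
  have h3 : (3 : (ZMod 3)[X]) = 0 := by
    have : ((3 : ℕ) : (ZMod 3)[X]) = 0 := CharP.cast_eq_zero _ 3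
    exact_mod_cast this
  rw [map_cyclotomic, cyclotomic_prime]
  refine ⟨(2) + (2) * X ^ 2 + (2) * X ^ 3 + (1) * X ^ 5 + (2) * X ^ 7 + (1) * X ^ 8 +
    (1) * X ^ 9, ?_⟩
  simp only [Finset.sum_range_succ, Finset.sum_range_zero, pow_zero, pow_one, zero_add]
  linear_combination ((1) + (1) * X + (1) * X ^ 2 + (1) * X ^ 3 + (1) * X ^ 4 + (1) * X ^ 7 +
    (1) * X ^ 8 + (1) * X ^ 9) * h3

theorem exists_over_3_thirteen (K : Type*) [Field K] [NumberField K]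
    [IsCyclotomicExtension {13} ℚ K] :
    ∃ P ∈ primesOver (span {((3 : ℕ) : ℤ)}) (𝓞 K), Submodule.IsPrincipal P := by
  haveI : Fact (Nat.Prime 13) := ⟨by norm_num⟩
  haveI : Fact (Nat.Prime 3) := ⟨by norm_num⟩
  have hΦ := zeta_geom_sum_eq_zero 13 K
  simp only [Finset.sum_range_succ, Finset.sum_range_zero, pow_zero, pow_one, zero_add] at hΦ
  set ζ := (IsCyclotomicExtension.zeta_spec 13 ℚ K).toInteger with hζ
  have hmapQ : (X ^ 3 - X - 1 : ℤ[X]).map (Int.castRingHom (ZMod 3)) = X ^ 3 - X - 1 := by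
    simp
  have haeval : aeval ζ (X ^ 3 - X - 1 : ℤ[X]) = ζ ^ 3 - ζ - 1 := by simp
  refine exists_primesOver_isPrincipal_of_factor 13 K 3 (X ^ 3 - X - 1) ?_ ?_ ?_
    (1 + ζ - ζ ^ 3)
    ((-1) + (-1) * ζ ^ 2 + (-1) * ζ ^ 3 + (-2) * ζ ^ 5 + (-1) * ζ ^ 7 + (-2) * ζ ^ 8 +
      (1) * ζ ^ 9 + (-3) * ζ ^ 10)
    (-1) 0 (-1) ?_ ?_ ?_
  · rw [hmapQ]
    exact irreducible_cubic_mod_three
  · rw [hmapQ]
    exact monic_cubic_mod_three
  · rw [hmapQ]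
    exact cubic_dvd_cyclotomic_mod_three
  · rw [haeval]
    ring
  · push_cast
    linear_combination ((-4) + (3) * ζ) * hΦ
  · rw [haeval]
    ring

theorem pid_thirteen (K : Type*) [Field K] [NumberField K] [IsCyclotomicExtension {13} ℚ K] :
    IsPrincipalIdealRing (𝓞 K) := by
  haveI : Fact (Nat.Prime 13) := ⟨by norm_num⟩
  haveI : IsGalois ℚ K := IsCyclotomicExtension.isGalois {13} ℚ K
  refine RingOfIntegers.isPrincipalIdealRing_of_isPrincipal_of_lt_or_isPrincipal_of_mem_primesOver_of_mem_Icc ?_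
  intro q hq hqp
  have hB := minkowski_thirteen K
  rw [Finset.mem_Icc] at hq
  have hq306 : q ≤ 306 := hq.2.trans hB
  haveI : Fact q.Prime := ⟨hqp⟩
  by_cases h13 : q = 13
  · subst h13
    obtain ⟨P, hP, h⟩ := exists_primesOver_self_isPrincipal 13 K
    exact ⟨P, hP, Or.inr h⟩
  by_cases h3 : q = 3
  · subst h3
    obtain ⟨P, hP, h⟩ := exists_over_3_thirteen K
    exact ⟨P, hP, Or.inr h⟩
  by_cases h53 : q = 53
  · subst h53
    obtain ⟨P, hP, h⟩ := exists_over_53_thirteen K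
    exact ⟨P, hP, Or.inr h⟩
  by_cases h79 : q = 79
  · subst h79
    obtain ⟨P, hP, h⟩ := exists_over_79_thirteen K
    exact ⟨P, hP, Or.inr h⟩
  by_cases h131 : q = 131
  · subst h131
    obtain ⟨P, hP, h⟩ := exists_over_131_thirteen K
    exact ⟨P, hP, Or.inr h⟩
  by_cases h157 : q = 157
  · subst h157
    obtain ⟨P, hP, h⟩ := exists_over_157_thirteen K
    exact ⟨P, hP, Or.inr h⟩
  obtain ⟨k, hk, hBk⟩ := order_check_thirteen q hq306 hqp h13 h3 h53 h79 h131 h157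
  obtain ⟨P, hP, h⟩ := exists_primesOver_lt_pow 13 K q h13 306 k hk hBk
  exact ⟨P, hP, Or.inl (lt_of_le_of_lt hB h)⟩

end Fermat.Agent.S11.PID
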