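import Mathlib.RingTheory.PrincipalIdealDomain
import Mathlib.RingTheory.RootsOfUnity.CyclotomicUnits
import Mathlib.RingTheory.Polynomial.Cyclotomic.Basic
import Mathlib.RingTheory.Coprime.Lemmas
import Mathlib.Data.ZMod.Basic
import Mathlib.Algebra.Field.ZMod
import Mathlib.Algebra.Ring.GeomSum

/-!
# Kummer descent (second case) in an abstract cyclotomic principal ideal domain

`KummerSetting p ζ` packages the facts about `ℤ[ζ_p]` which the descent uses: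
`ζ - 1` is prime, `(ζ - 1)^(p-1)` is associated to `p`, the residue field at `ζ - 1` is
`𝔽_p`, and Kummer's lemma holds.
-/

set_option autoImplicit false
set_option linter.unusedSectionVars false
set_option linter.style.haveILetI false

namespace Fermat.Agent.S11

open Finset Polynomial

/-- The abstract facts about `ℤ[ζ_p]` used by the descent. -/
structure KummerSetting {R : Type*} [CommRing R] (p : ℕ) (ζ : R) : Prop where
  prime : p.Prime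
  odd : p ≠ 2
  root : IsPrimitiveRoot ζ p
  pi_prime : Prime (ζ - 1)
  assoc : Associated ((ζ - 1) ^ (p - 1)) (p : R)
  resid : ∀ x : R, ∃ n : ℤ, (ζ - 1) ∣ x - n
  int_dvd : ∀ n : ℤ, (ζ - 1) ∣ (n : R) → (p : ℤ) ∣ n
  kummer : ∀ u : Rˣ, (∃ n : ℤ, (p : R) ∣ (u : R) - n) → ∃ v : Rˣ, u = v ^ p

namespace KummerSetting

variable {R : Type*} [CommRing R] [IsDomain R] {p : ℕ} {ζ : R}

lemma three_le (S : KummerSetting p ζ) : 3 ≤ p := by
  have := S.prime.two_le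
  have := S.odd
  omega

lemma pi_dvd_p (S : KummerSetting p ζ) : (ζ - 1) ∣ (p : R) := by
  have h1 : (ζ - 1) ∣ (ζ - 1) ^ (p - 1) := dvd_pow_self _ (by have := S.three_le; omega)
  exact h1.trans S.assoc.dvd

lemma pi_pow_dvd_p (S : KummerSetting p ζ) : (ζ - 1) ^ (p - 1) ∣ (p : R) := S.assoc.dvd

lemma p_dvd_pi_pow (S : KummerSetting p ζ) : (p : R) ∣ (ζ - 1) ^ (p - 1) := S.assoc.symm.dvd

lemma pi_dvd_int_iff (S : KummerSetting p ζ) (n : ℤ) : (ζ - 1) ∣ (n : R) ↔ (p : ℤ) ∣ n := by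
  refine ⟨S.int_dvd n, fun ⟨k, hk⟩ => ?_⟩
  rw [hk]
  push_cast
  exact Dvd.dvd.mul_right S.pi_dvd_p _

lemma pi_dvd_pow_sub_one (i : ℕ) : (ζ - 1) ∣ ζ ^ i - 1 := by
  simpa using sub_dvd_pow_sub_pow ζ 1 i

lemma pow_sub_one_eq (i : ℕ) : ζ ^ i - 1 = (ζ - 1) * ∑ j ∈ range i, ζ ^ j :=
  (mul_geom_sum ζ i).symm

lemma pi_dvd_geom_sum_sub (i : ℕ) : (ζ - 1) ∣ (∑ j ∈ range i, ζ ^ j) - (i : R) := by
  have : (∑ j ∈ range i, ζ ^ j) - (i : R) = ∑ j ∈ range i, (ζ ^ j - 1) := by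
    rw [Finset.sum_sub_distrib]
    simp
  rw [this]
  exact Finset.dvd_sum fun j _ => pi_dvd_pow_sub_one j

lemma zeta_isUnit (S : KummerSetting p ζ) : IsUnit ζ :=
  S.root.isUnit S.prime.ne_zero

lemma one_add_zeta_isUnit (S : KummerSetting p ζ) : IsUnit (1 + ζ) := by
  have h := S.root.geom_sum_isUnit (j := 2) S.prime.two_le
    ((Nat.coprime_primes Nat.prime_two S.prime).2 (Ne.symm S.odd))
  simpa [Finset.sum_range_succ] using h

lemma mem_roots_iff (S : KummerSetting p ζ) (η : R) :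
    η ∈ nthRootsFinset p (1 : R) ↔ η ^ p = 1 :=
  mem_nthRootsFinset S.prime.pos 1

lemma roots_isUnit (S : KummerSetting p ζ) {η : R} (hη : η ∈ nthRootsFinset p (1 : R)) :
    IsUnit η :=
  IsUnit.of_pow_eq_one ((S.mem_roots_iff η).1 hη) S.prime.ne_zero

/-- For distinct `p`-th roots of unity, the difference is associated to `ζ - 1`. -/
lemma assoc_sub (S : KummerSetting p ζ) {η₁ η₂ : R} (h₁ : η₁ ∈ nthRootsFinset p (1 : R))
    (h₂ : η₂ ∈ nthRootsFinset p (1 : R)) (hne : η₁ ≠ η₂) : Associated (ζ - 1) (η₁ - η₂) :=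
  S.root.nthRootsFinset_pairwise_associated_sub_one_sub_of_prime S.prime h₁ h₂ hne

/-- Every element is congruent to an integer modulo `p` after raising to the `p`-th power. -/
lemma exists_int_pow_sub_dvd (S : KummerSetting p ζ) (x : R) :
    ∃ n : ℤ, (p : R) ∣ x ^ p - n := by
  obtain ⟨n, hn⟩ := S.resid x
  refine ⟨n ^ p, ?_⟩
  push_cast
  rw [S.root.pow_sub_pow_eq_prod_sub_mul x (n : R) S.prime.pos]
  have h1 : ∀ η ∈ nthRootsFinset p (1 : R), (ζ - 1) ∣ x - η * n := by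
    intro η hη
    have h2 : x - η * n = (x - n) - (η - 1) * n := by ring
    rw [h2]
    refine dvd_sub hn (Dvd.dvd.mul_right ?_ _)
    by_cases h1 : η = 1
    · simp [h1]
    · exact (S.assoc_sub hη ((S.mem_roots_iff 1).2 (one_pow p)) h1).dvd
  have h3 : (ζ - 1) ^ p ∣ ∏ η ∈ nthRootsFinset p (1 : R), (x - η * n) := by
    have := Finset.prod_dvd_prod_of_dvd (s := nthRootsFinset p (1 : R)) (fun _ => ζ - 1)
      (fun η => x - η * (n : R)) h1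
    simpa [Finset.prod_const, S.root.card_nthRootsFinset] using this
  refine dvd_trans ?_ h3
  have h4 : (ζ - 1) ^ p = (ζ - 1) ^ (p - 1) * (ζ - 1) := by
    rw [← pow_succ]
    congr 1
    have := S.prime.pos
    omega
  rw [h4]
  exact Dvd.dvd.mul_right S.p_dvd_pi_pow _

/-- If `ζ - 1` divides `x + y` and not `y`, then some twist `x + ζ^i y` is divisible by
`(ζ - 1)^2`. -/
lemma exists_sq_dvd (S : KummerSetting p ζ) {x y : R} (hy : ¬ (ζ - 1) ∣ y)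
    (hxy : (ζ - 1) ∣ x + y) : ∃ i : ℕ, (ζ - 1) ^ 2 ∣ x + ζ ^ i * y := by
  obtain ⟨t, ht⟩ := hxy
  obtain ⟨nt, hnt⟩ := S.resid t
  obtain ⟨ny, hny⟩ := S.resid y
  haveI : Fact p.Prime := ⟨S.prime⟩
  have hny0 : (ny : ZMod p) ≠ 0 := by
    intro h0
    rw [ZMod.intCast_zmod_eq_zero_iff_dvd] at h0
    have h1 := (S.pi_dvd_int_iff ny).2 h0
    exact hy (by simpa using dvd_add hny h1)
  set i : ℕ := ZMod.val (-(nt : ZMod p) * (ny : ZMod p)⁻¹) with hi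
  have hcong : (p : ℤ) ∣ nt + ny * (i : ℤ) := by
    rw [← ZMod.intCast_zmod_eq_zero_iff_dvd]
    push_cast
    rw [hi, ZMod.natCast_val, ZMod.cast_id', id]
    have h7 : (ny : ZMod p) * (ny : ZMod p)⁻¹ = 1 := mul_inv_cancel₀ hny0
    have h6 : (ny : ZMod p) * (-(nt : ZMod p) * (ny : ZMod p)⁻¹) = -(nt : ZMod p) := by
      rw [mul_comm (-(nt : ZMod p)), ← mul_assoc, h7, one_mul]
    rw [h6]
    ring
  refine ⟨i, ?_⟩
  have hkey : x + ζ ^ i * y = (ζ - 1) * (t + (∑ j ∈ range i, ζ ^ j) * y) := by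
    have : x + ζ ^ i * y = (x + y) + (ζ ^ i - 1) * y := by ring
    rw [this, ht, pow_sub_one_eq]
    ring
  rw [hkey, pow_two]
  refine mul_dvd_mul_left _ ?_
  have h5 : t + (∑ j ∈ range i, ζ ^ j) * y =
      (t - nt) + ((∑ j ∈ range i, ζ ^ j) - (i : R)) * y + (i : R) * (y - ny) +
        ((nt + ny * (i : ℤ) : ℤ) : R) := by
    push_cast
    ring
  rw [h5]
  refine dvd_add (dvd_add (dvd_add hnt ?_) ?_) ?_
  · exact Dvd.dvd.mul_right (pi_dvd_geom_sum_sub i) _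
  · exact Dvd.dvd.mul_left hny _
  · exact (S.pi_dvd_int_iff _).2 hcong

/-- Normalisation: from a solution we get one with `(ζ - 1)^2 ∣ x + y`. -/
lemma exists_normalized (S : KummerSetting p ζ) {x y z : R} {ε : Rˣ}
    (hy : ¬ (ζ - 1) ∣ y) (hxy : IsCoprime x y) (hz : (ζ - 1) ∣ z)
    (h : x ^ p + y ^ p = ε * z ^ p) :
    ∃ y' : R, ¬ (ζ - 1) ∣ y' ∧ IsCoprime x y' ∧ x ^ p + y' ^ p = ε * z ^ p ∧
      (ζ - 1) ^ 2 ∣ x + y' := by
  have hprod : x ^ p + y ^ p = ∏ η ∈ nthRootsFinset p (1 : R), (x + η * y) :=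
    S.root.pow_add_pow_eq_prod_add_mul x y (S.prime.odd_of_ne_two S.odd)
  have hdvd : (ζ - 1) ∣ ∏ η ∈ nthRootsFinset p (1 : R), (x + η * y) := by
    rw [← hprod, h]
    exact Dvd.dvd.mul_left (dvd_pow hz S.prime.ne_zero) _
  obtain ⟨η₀, hη₀, hη₀dvd⟩ := (Prime.dvd_finsetProd_iff S.pi_prime _).1 hdvd
  have hη₀u : IsUnit η₀ := S.roots_isUnit hη₀
  have hy₀ : ¬ (ζ - 1) ∣ η₀ * y := fun hd => hy ((hη₀u.dvd_mul_left).1 hd)
  obtain ⟨i, hi⟩ := S.exists_sq_dvd hy₀ hη₀dvd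
  have hη₀p : η₀ ^ p = 1 := (S.mem_roots_iff η₀).1 hη₀
  have hζp : ζ ^ p = 1 := S.root.pow_eq_one
  have hu : IsUnit (ζ ^ i * η₀) := (S.zeta_isUnit.pow i).mul hη₀u
  refine ⟨ζ ^ i * η₀ * y, fun hd => hy ((hu.dvd_mul_left).1 hd), ?_, ?_, ?_⟩
  · exact (isCoprime_mul_unit_left_right hu x y).2 hxy
  · rw [← h, mul_pow, mul_pow, ← pow_mul, mul_comm i p, pow_mul, hζp, hη₀p]
    simp
  · rw [mul_assoc]
    exact hi

/-- The descent step. -/
lemma descent_step (S : KummerSetting p ζ) [IsPrincipalIdealRing R] {m : ℕ} {x y z : R}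
    {ε : Rˣ} (hy : ¬ (ζ - 1) ∣ y) (hz : ¬ (ζ - 1) ∣ z)
    (hxy : IsCoprime x y) (hm : 1 ≤ m) (h : x ^ p + y ^ p = ε * ((ζ - 1) ^ m * z) ^ p)
    (hsq : (ζ - 1) ^ 2 ∣ x + y) :
    2 ≤ m ∧ ∃ x' y' z' : R, ∃ ε' : Rˣ, ¬ (ζ - 1) ∣ x' ∧ ¬ (ζ - 1) ∣ y' ∧ ¬ (ζ - 1) ∣ z' ∧
      IsCoprime x' y' ∧ x' ^ p + y' ^ p = ε' * ((ζ - 1) ^ (m - 1) * z') ^ p := by
  classical
  have hp3 := S.three_le
  have hπ0 : ζ - 1 ≠ 0 := S.pi_prime.ne_zero
  have hone : (1 : R) ∈ nthRootsFinset p (1 : R) := (S.mem_roots_iff 1).2 (one_pow p)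
  have hprod : x ^ p + y ^ p = ∏ η ∈ nthRootsFinset p (1 : R), (x + η * y) :=
    S.root.pow_add_pow_eq_prod_add_mul x y (S.prime.odd_of_ne_two S.odd)
  -- each factor is divisible by `ζ - 1`
  have hπdvd : ∀ η ∈ nthRootsFinset p (1 : R), (ζ - 1) ∣ x + η * y := by
    intro η hη
    have h1 : x + η * y = (x + y) + (η - 1) * y := by ring
    rw [h1]
    refine dvd_add (dvd_trans (dvd_pow_self _ two_ne_zero) hsq) (Dvd.dvd.mul_right ?_ _)
    by_cases h1 : η = 1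
    · simp [h1]
    · exact (S.assoc_sub hη hone h1).dvd
  choose! a ha using hπdvd
  -- for `η ≠ 1` the quotient is prime to `ζ - 1`
  have hnot : ∀ η ∈ nthRootsFinset p (1 : R), η ≠ 1 → ¬ (ζ - 1) ∣ a η := by
    intro η hη hne hdiv
    obtain ⟨u, hu⟩ := S.assoc_sub hη hone hne
    have h1 : (ζ - 1) ^ 2 ∣ x + η * y := by
      rw [ha η hη, pow_two]
      exact mul_dvd_mul_left _ hdiv
    have h2 : (ζ - 1) ^ 2 ∣ (η - 1) * y := by
      have h3 : (η - 1) * y = (x + η * y) - (x + y) := by ring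
      rw [h3]
      exact dvd_sub h1 hsq
    rw [← hu, pow_two, mul_assoc] at h2
    have h3 : (ζ - 1) ∣ u * y := (mul_dvd_mul_iff_left hπ0).1 h2
    exact hy ((u.isUnit.dvd_mul_left).1 h3)
  -- the quotients are pairwise coprime
  have hcop : ∀ η₁ ∈ nthRootsFinset p (1 : R), ∀ η₂ ∈ nthRootsFinset p (1 : R), η₁ ≠ η₂ →
      IsCoprime (a η₁) (a η₂) := by
    intro η₁ h₁ η₂ h₂ hne
    obtain ⟨u, hu⟩ := S.assoc_sub h₁ h₂ hne
    obtain ⟨r, s, hrs⟩ := hxy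
    have e1 : a η₁ - a η₂ = u * y := by
      apply mul_left_cancel₀ hπ0
      rw [mul_sub, ← ha η₁ h₁, ← ha η₂ h₂, ← mul_assoc, hu]
      ring
    have e2 : η₂ * a η₁ - η₁ * a η₂ = -(u * x) := by
      apply mul_left_cancel₀ hπ0
      calc (ζ - 1) * (η₂ * a η₁ - η₁ * a η₂)
          = η₂ * ((ζ - 1) * a η₁) - η₁ * ((ζ - 1) * a η₂) := by ring
        _ = η₂ * (x + η₁ * y) - η₁ * (x + η₂ * y) := by rw [ha η₁ h₁, ha η₂ h₂]
        _ = -((η₁ - η₂) * x) := by ring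
        _ = (ζ - 1) * -(u * x) := by rw [← hu]; ring
    refine ⟨-(r * ↑u⁻¹ * η₂) + s * ↑u⁻¹, r * ↑u⁻¹ * η₁ - s * ↑u⁻¹, ?_⟩
    have hu1 : (↑u⁻¹ : R) * u = 1 := u.inv_mul
    calc (-(r * ↑u⁻¹ * η₂) + s * ↑u⁻¹) * a η₁ + (r * ↑u⁻¹ * η₁ - s * ↑u⁻¹) * a η₂
        = -(r * ↑u⁻¹) * (η₂ * a η₁ - η₁ * a η₂) + s * ↑u⁻¹ * (a η₁ - a η₂) := by ring
      _ = -(r * ↑u⁻¹) * (-(u * x)) + s * ↑u⁻¹ * (u * y) := by rw [e1, e2]
      _ = (↑u⁻¹ * u) * (r * x + s * y) := by ring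
      _ = 1 := by rw [hu1, hrs, mul_one]
  -- the product of the quotients
  have hprod_a : ∏ η ∈ nthRootsFinset p (1 : R), a η = ε * ((ζ - 1) ^ (m - 1) * z) ^ p := by
    apply mul_left_cancel₀ (pow_ne_zero p hπ0)
    calc (ζ - 1) ^ p * ∏ η ∈ nthRootsFinset p (1 : R), a η
        = ∏ η ∈ nthRootsFinset p (1 : R), ((ζ - 1) * a η) := by
          rw [Finset.prod_mul_distrib, Finset.prod_const, S.root.card_nthRootsFinset]
      _ = ∏ η ∈ nthRootsFinset p (1 : R), (x + η * y) :=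
          Finset.prod_congr rfl (fun η hη => (ha η hη).symm)
      _ = ε * ((ζ - 1) ^ m * z) ^ p := by rw [← hprod, h]
      _ = (ζ - 1) ^ p * (ε * ((ζ - 1) ^ (m - 1) * z) ^ p) := by
          obtain ⟨k, rfl⟩ : ∃ k, m = k + 1 := ⟨m - 1, by omega⟩
          simp only [Nat.add_sub_cancel]
          have key : ∀ π : R, (ε : R) * (π ^ (k + 1) * z) ^ p =
              π ^ p * (ε * (π ^ k * z) ^ p) := fun π => by ring
          exact key _
  -- each quotient is coprime to the product of the others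
  have hcop' : ∀ η ∈ nthRootsFinset p (1 : R),
      IsCoprime (a η) (∏ η' ∈ (nthRootsFinset p (1 : R)).erase η, a η') := by
    intro η hη
    exact IsCoprime.prod_right (fun η' hη' =>
      hcop η hη η' (Finset.mem_of_mem_erase hη') (Finset.ne_of_mem_erase hη').symm)
  have hmul : ∀ η ∈ nthRootsFinset p (1 : R),
      a η * ∏ η' ∈ (nthRootsFinset p (1 : R)).erase η, a η' =
        ε * ((ζ - 1) ^ (m - 1) * z) ^ p := by
    intro η hη
    rw [Finset.mul_prod_erase _ a hη, hprod_a]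
  have hpow : ∀ η ∈ nthRootsFinset p (1 : R), ∃ ρ : R, Associated (ρ ^ p) (a η) := by
    intro η hη
    refine exists_associated_pow_of_associated_pow_mul (hcop' η hη)
      (c := (ζ - 1) ^ (m - 1) * z) (k := p) ⟨ε, ?_⟩
    rw [hmul η hη, mul_comm]
  -- the three roots `1`, `ζ`, `ζ⁻¹`
  set ζ' : R := ζ ^ (p - 1) with hζ'
  have hζp : ζ ^ p = 1 := S.root.pow_eq_one
  have hζζ' : ζ * ζ' = 1 := by
    rw [hζ', ← pow_succ', show p - 1 + 1 = p by omega, hζp]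
  have hζmem : ζ ∈ nthRootsFinset p (1 : R) := (S.mem_roots_iff ζ).2 hζp
  have hζ'mem : ζ' ∈ nthRootsFinset p (1 : R) := by
    rw [S.mem_roots_iff, hζ', ← pow_mul, mul_comm, pow_mul, hζp, one_pow]
  have hζ1 : ζ ≠ 1 := S.root.ne_one S.prime.one_lt
  have hζ'1 : ζ' ≠ 1 := S.root.pow_ne_one_of_pos_of_lt (by omega) (by omega)
  have hζζ'ne : ζ ≠ ζ' := by
    intro heq
    have h1 : ζ ^ 2 = 1 := by rw [pow_two]; nth_rewrite 2 [heq]; exact hζζ'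
    exact S.root.pow_ne_one_of_pos_of_lt (by omega) (by omega) h1
  -- the quotient at `1` is divisible by the right power of `ζ - 1`
  have hπa1 : (ζ - 1) ∣ a 1 := by
    have h1 : (ζ - 1) ^ 2 ∣ (ζ - 1) * a 1 := by
      rw [← ha 1 hone, one_mul]
      exact hsq
    rw [pow_two] at h1
    exact (mul_dvd_mul_iff_left hπ0).1 h1
  have hnotprod : ¬ (ζ - 1) ∣ ∏ η' ∈ (nthRootsFinset p (1 : R)).erase 1, a η' := by
    intro hd
    obtain ⟨η, hη, hηd⟩ := (Prime.dvd_finsetProd_iff S.pi_prime _).1 hd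
    exact hnot η (Finset.mem_of_mem_erase hη) (Finset.ne_of_mem_erase hη) hηd
  have hpowdvd : (ζ - 1) ^ (p * (m - 1)) ∣ a 1 := by
    refine S.pi_prime.pow_dvd_of_dvd_mul_right _ hnotprod ?_
    rw [hmul 1 hone, mul_pow, ← pow_mul, mul_comm (m - 1) p]
    exact Dvd.dvd.mul_left (Dvd.intro _ rfl) _
  obtain ⟨b, hb⟩ := hpowdvd
  have hbmul : b * ∏ η' ∈ (nthRootsFinset p (1 : R)).erase 1, a η' = ε * z ^ p := by
    apply mul_left_cancel₀ (pow_ne_zero (p * (m - 1)) hπ0)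
    rw [← mul_assoc, ← hb, hmul 1 hone, mul_pow, ← pow_mul, mul_comm (m - 1) p]
    ring
  have hbnot : ¬ (ζ - 1) ∣ b := by
    intro hd
    have h1 : (ζ - 1) ∣ ε * z ^ p := by
      rw [← hbmul]
      exact Dvd.dvd.mul_right hd _
    have h2 : (ζ - 1) ∣ z ^ p := (ε.isUnit.dvd_mul_left).1 h1
    exact hz (S.pi_prime.dvd_of_dvd_pow h2)
  have hm2 : 2 ≤ m := by
    by_contra hlt
    have hm1 : m = 1 := by omega
    rw [hm1] at hb
    simp at hb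
    exact hbnot (hb ▸ hπa1)
  have hbcop : IsCoprime b (∏ η' ∈ (nthRootsFinset p (1 : R)).erase 1, a η') := by
    have := hcop' 1 hone
    rw [hb] at this
    exact this.of_mul_left_right
  obtain ⟨ρ₀, ε₀, hρ₀⟩ : ∃ ρ : R, Associated (ρ ^ p) b :=
    exists_associated_pow_of_associated_pow_mul hbcop (c := z) (k := p)
      ⟨ε, by rw [hbmul, mul_comm]⟩
  obtain ⟨ρ₁, ε₁, hρ₁⟩ := hpow ζ hζmem
  obtain ⟨ρ₂, ε₂, hρ₂⟩ := hpow ζ' hζ'mem
  have hρ₀not : ¬ (ζ - 1) ∣ ρ₀ := by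
    intro hd
    apply hbnot
    rw [← hρ₀]
    exact Dvd.dvd.mul_right (dvd_pow hd S.prime.ne_zero) _
  have hρ₁not : ¬ (ζ - 1) ∣ ρ₁ := by
    intro hd
    apply hnot ζ hζmem hζ1
    rw [← hρ₁]
    exact Dvd.dvd.mul_right (dvd_pow hd S.prime.ne_zero) _
  have hρ₂not : ¬ (ζ - 1) ∣ ρ₂ := by
    intro hd
    apply hnot ζ' hζ'mem hζ'1
    rw [← hρ₂]
    exact Dvd.dvd.mul_right (dvd_pow hd S.prime.ne_zero) _
  -- the three term relation
  have hrel : a ζ + ζ * a ζ' = (1 + ζ) * a 1 := by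
    apply mul_left_cancel₀ hπ0
    calc (ζ - 1) * (a ζ + ζ * a ζ') = (ζ - 1) * a ζ + ζ * ((ζ - 1) * a ζ') := by ring
      _ = (x + ζ * y) + ζ * (x + ζ' * y) := by rw [ha ζ hζmem, ha ζ' hζ'mem]
      _ = (x + ζ * y) + (ζ * x + (ζ * ζ') * y) := by ring
      _ = (1 + ζ) * (x + 1 * y) := by rw [hζζ']; ring
      _ = (ζ - 1) * ((1 + ζ) * a 1) := by rw [ha 1 hone]; ring
  obtain ⟨ζu, hζu⟩ := S.zeta_isUnit
  obtain ⟨ωu, hωu⟩ := S.one_add_zeta_isUnit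
  set u : Rˣ := ζu * ε₂ * ε₁⁻¹ with hu
  set u' : Rˣ := ωu * ε₀ * ε₁⁻¹ with hu'
  have hε₁ : (↑ε₁⁻¹ : R) * ε₁ = 1 := ε₁.inv_mul
  have hnew : ρ₁ ^ p + u * ρ₂ ^ p = u' * ((ζ - 1) ^ (m - 1) * ρ₀) ^ p := by
    have h1 : ρ₁ ^ p * ε₁ + ζ * (ρ₂ ^ p * ε₂) =
        (1 + ζ) * ((ζ - 1) ^ (p * (m - 1)) * (ρ₀ ^ p * ε₀)) := by
      rw [hρ₁, hρ₂, hρ₀, ← hb, hrel]
    calc ρ₁ ^ p + u * ρ₂ ^ p
        = ↑ε₁⁻¹ * (ρ₁ ^ p * ε₁ + ζ * (ρ₂ ^ p * ε₂)) + (1 - ↑ε₁⁻¹ * ε₁) * ρ₁ ^ p := by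
          rw [hu]
          push_cast
          rw [hζu]
          ring
      _ = ↑ε₁⁻¹ * ((1 + ζ) * ((ζ - 1) ^ (p * (m - 1)) * (ρ₀ ^ p * ε₀))) := by
          rw [h1, hε₁]
          ring
      _ = u' * ((ζ - 1) ^ (m - 1) * ρ₀) ^ p := by
          rw [hu']
          push_cast
          rw [hωu, mul_pow, ← pow_mul, mul_comm (m - 1) p]
          ring
  -- `u` is congruent to an integer modulo `p`
  have hpdvd : (p : R) ∣ ((ζ - 1) ^ (m - 1) * ρ₀) ^ p := by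
    have h1 : (ζ - 1) ^ (p - 1) ∣ ((ζ - 1) ^ (m - 1) * ρ₀) ^ p := by
      rw [mul_pow, ← pow_mul]
      refine Dvd.dvd.mul_right (pow_dvd_pow _ ?_) _
      calc p - 1 ≤ p := Nat.sub_le _ _
        _ = 1 * p := (one_mul p).symm
        _ ≤ (m - 1) * p := Nat.mul_le_mul_right p (by omega)
    exact S.p_dvd_pi_pow.trans h1
  obtain ⟨n₁, hn₁⟩ := S.exists_int_pow_sub_dvd ρ₁
  obtain ⟨n₂, hn₂⟩ := S.exists_int_pow_sub_dvd ρ₂
  have hn₂p : ¬ (p : ℤ) ∣ n₂ := by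
    intro hd
    have h1 : (ζ - 1) ∣ (n₂ : R) := (S.pi_dvd_int_iff n₂).2 hd
    have h2 : (ζ - 1) ∣ ρ₂ ^ p := by
      have h3 : ρ₂ ^ p = (ρ₂ ^ p - n₂) + n₂ := by ring
      rw [h3]
      exact dvd_add (S.pi_dvd_p.trans hn₂) h1
    exact hρ₂not (S.pi_prime.dvd_of_dvd_pow h2)
  have hsum : (p : R) ∣ (n₁ : R) + u * n₂ := by
    have h1 : (n₁ : R) + u * n₂ =
        (ρ₁ ^ p + u * ρ₂ ^ p) - (ρ₁ ^ p - n₁) - u * (ρ₂ ^ p - n₂) := by ring
    rw [h1, hnew]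
    exact dvd_sub (dvd_sub (Dvd.dvd.mul_left hpdvd _) hn₁) (Dvd.dvd.mul_left hn₂ _)
  obtain ⟨n₂', hn₂'⟩ : ∃ n₂' : ℤ, (p : ℤ) ∣ n₂ * n₂' - 1 := by
    have hcop : IsCoprime n₂ (p : ℤ) := by
      rw [isCoprime_comm]
      exact (Int.prime_iff_natAbs_prime.2 (by simpa using S.prime)).coprime_iff_not_dvd.2 hn₂p
    obtain ⟨r, s, hrs⟩ := hcop
    exact ⟨r, ⟨-s, by linear_combination hrs⟩⟩
  have hucong : ∃ n : ℤ, (p : R) ∣ (u : R) - n := by
    refine ⟨-(n₁ * n₂'), ?_⟩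
    obtain ⟨k, hk⟩ := hn₂'
    have hk' : (n₂ : R) * n₂' - 1 = p * k := by exact_mod_cast congrArg (Int.cast : ℤ → R) hk
    have h1 : (u : R) - ((-(n₁ * n₂') : ℤ) : R) =
        (n₂' : R) * ((n₁ : R) + u * n₂) - u * ((n₂ : R) * n₂' - 1) := by
      push_cast
      ring
    rw [h1, hk']
    exact dvd_sub (Dvd.dvd.mul_left hsum _) (Dvd.dvd.mul_left (Dvd.intro _ rfl) _)
  obtain ⟨v, hv⟩ := S.kummer u hucong
  refine ⟨hm2, ρ₁, v * ρ₂, ρ₀, u', hρ₁not, ?_, hρ₀not, ?_, ?_⟩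
  · exact fun hd => hρ₂not ((v.isUnit.dvd_mul_left).1 hd)
  · have h1 : IsCoprime (ρ₁ ^ p * ε₁) (ρ₂ ^ p * ε₂) := by
      rw [hρ₁, hρ₂]
      exact hcop ζ hζmem ζ' hζ'mem hζζ'ne
    have h2 : IsCoprime (ρ₁ ^ p) (ρ₂ ^ p) := by
      have h3 := (isCoprime_mul_unit_right_left ε₁.isUnit _ _).1 h1
      exact (isCoprime_mul_unit_right_right ε₂.isUnit _ _).1 h3
    have h3 : IsCoprime ρ₁ ρ₂ := (IsCoprime.pow_iff S.prime.pos S.prime.pos).1 h2
    exact (isCoprime_mul_unit_left_right v.isUnit _ _).2 h3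
  · rw [mul_pow, ← hnew, hv]
    push_cast
    ring

/-- No solution of the generalised equation, with explicit exponent of `ζ - 1`. -/
lemma no_solution_aux (S : KummerSetting p ζ) [IsPrincipalIdealRing R] :
    ∀ m : ℕ, 1 ≤ m → ∀ (x y z : R) (ε : Rˣ), ¬ (ζ - 1) ∣ y → ¬ (ζ - 1) ∣ z →
      IsCoprime x y → x ^ p + y ^ p ≠ ε * ((ζ - 1) ^ m * z) ^ p := by
  intro m
  induction m with
  | zero => intro h; omega
  | succ k ih =>
    intro _ x y z ε hy hz hxy h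
    obtain ⟨y', hy', hxy', h', hsq⟩ := S.exists_normalized hy hxy
      (Dvd.dvd.mul_right (dvd_pow_self _ (Nat.succ_ne_zero k)) z) h
    obtain ⟨hm2, x'', y'', z'', ε'', -, hy'', hz'', hxy'', h''⟩ :=
      S.descent_step hy' hz hxy' (by omega) h' hsq
    exact ih (by omega) x'' y'' z'' ε'' hy'' hz'' hxy'' (by simpa using h'')

/-- **Second case, generalised equation**: no solutions of `x^p + y^p = ε z^p` with
`ζ - 1 ∣ z`, `z ≠ 0`, `ζ - 1 ∤ y` and `x`, `y` coprime. -/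
theorem no_solution (S : KummerSetting p ζ) [IsPrincipalIdealRing R] (x y z : R) (ε : Rˣ)
    (hz0 : z ≠ 0) (hz : (ζ - 1) ∣ z) (hy : ¬ (ζ - 1) ∣ y) (hxy : IsCoprime x y) :
    x ^ p + y ^ p ≠ ε * z ^ p := by
  obtain ⟨m, z', hz', rfl⟩ := WfDvdMonoid.max_power_factor hz0 S.pi_prime.irreducible
  have hm : 1 ≤ m := by
    rcases Nat.eq_zero_or_pos m with h0 | h0
    · rw [h0, pow_zero, one_mul] at hz
      exact absurd hz hz'
    · exact h0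
  exact S.no_solution_aux m hm x y z' ε hy hz' hxy

/-- **Second case over `ℤ`**. -/
theorem caseII_int (S : KummerSetting p ζ) [IsPrincipalIdealRing R] [CharZero R]
    (a b c : ℤ) (hc : c ≠ 0) (hb : ¬ (p : ℤ) ∣ b) (hpc : (p : ℤ) ∣ c)
    (hab : IsCoprime a b) : a ^ p + b ^ p ≠ c ^ p := by
  intro h
  refine S.no_solution (a : R) (b : R) (c : R) 1 (by exact_mod_cast hc)
    ((S.pi_dvd_int_iff c).2 hpc) (fun hd => hb ((S.pi_dvd_int_iff b).1 hd)) hab.intCast ?_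
  simp only [Units.val_one, one_mul]
  exact_mod_cast congrArg (Int.cast : ℤ → R) h

end KummerSetting

end Fermat.Agent.S11
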