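import Mathlib.RingTheory.Int.Basic
import Mathlib.Algebra.Ring.GeomSum
import Mathlib.Data.ZMod.Basic
import Mathlib.Algebra.Field.ZMod
import Mathlib.RingTheory.Coprime.Lemmas
import Mathlib.Tactic

/-!
# Sophie Germain's theorem (first case of Fermat's Last Theorem with an auxiliary prime)

Elementary.  For an odd prime `p` and an auxiliary prime `q` such that

* `x ^ p + y ^ p + z ^ p = 0` in `ZMod q` forces `x * y * z = 0`, and
* `p` is not a `p`-th power in `ZMod q`,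

every integer solution of `a ^ p + b ^ p = c ^ p` with `a`, `b` coprime has `p ∣ a * b * c`.
Instances: `(p, q) = (5, 11), (7, 29), (11, 23), (13, 53)`.
-/

set_option autoImplicit false

namespace Fermat.Agent.S11

open Finset

/-- The cofactor `(y ^ p + z ^ p) / (y + z)` (for odd `p`). -/
def sgPhi (p : ℕ) (y z : ℤ) : ℤ := ∑ i ∈ range p, y ^ i * (-z) ^ (p - 1 - i)

lemma sgPhi_mul {p : ℕ} (hp : Odd p) (y z : ℤ) : sgPhi p y z * (y + z) = y ^ p + z ^ p := by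
  have := geom_sum₂_mul y (-z) p
  rw [hp.neg_pow, sub_neg_eq_add, sub_neg_eq_add] at this
  exact this

lemma sgPhi_sub_dvd (p : ℕ) (y z : ℤ) : (y + z) ∣ sgPhi p y z - p * y ^ (p - 1) := by
  rw [← geom_sum₂_self y p, sgPhi, ← Finset.sum_sub_distrib]
  apply Finset.dvd_sum
  intro i _
  rw [← mul_sub]
  apply Dvd.dvd.mul_left
  have h1 := sub_dvd_pow_sub_pow (-z) y (p - 1 - i)
  have h2 : (y + z) ∣ (-z - y) := ⟨-1, by ring⟩
  exact h2.trans h1

lemma sgPhi_sub_dvd_left {p : ℕ} (hp : 0 < p) (x y : ℤ) :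
    x ∣ sgPhi p x y - (-y) ^ (p - 1) := by
  obtain ⟨n, rfl⟩ : ∃ n, p = n + 1 := ⟨p - 1, by omega⟩
  rw [sgPhi, Finset.sum_range_succ']
  simp only [pow_zero, one_mul, Nat.add_sub_cancel, Nat.sub_zero, add_sub_cancel_right]
  apply Finset.dvd_sum
  intro i _
  rw [pow_succ', mul_assoc]
  exact Dvd.intro _ rfl

lemma isCoprime_add_sgPhi {p : ℕ} (hp : p.Prime) {y z : ℤ} (hyz : IsCoprime y z)
    (hpyz : ¬ (p : ℤ) ∣ y + z) : IsCoprime (y + z) (sgPhi p y z) := by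
  have hpp : Prime (p : ℤ) := Nat.prime_iff_prime_int.mp hp
  have h1 : IsCoprime (y + z) y := by
    have : IsCoprime z y := hyz.symm
    simpa [add_comm] using (this.add_mul_left_left 1)
  have h2 : IsCoprime (y + z) (p : ℤ) :=
    ((Prime.coprime_iff_not_dvd hpp).mpr hpyz).symm
  have h3 : IsCoprime (y + z) ((p : ℤ) * y ^ (p - 1)) := h2.mul_right (h1.pow_right)
  obtain ⟨k, hk⟩ := sgPhi_sub_dvd p y z
  have : sgPhi p y z = (p : ℤ) * y ^ (p - 1) + (y + z) * k := by linarith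
  rw [this]
  exact h3.add_mul_left_right k

/-- The heart of Sophie Germain's argument, in the case where the auxiliary prime divides `x`. -/
theorem sophieGermain_aux {p q : ℕ} (hp : p.Prime) (hp2 : p ≠ 2) (hq : q.Prime)
    (h1 : ∀ x y z : ZMod q, x ^ p + y ^ p + z ^ p = 0 → x * y * z = 0)
    (h2 : ∀ t : ZMod q, t ^ p ≠ (p : ZMod q))
    {x y z : ℤ} (hxy : IsCoprime x y) (hyz : IsCoprime y z) (hzx : IsCoprime z x)
    (hpx : ¬ (p : ℤ) ∣ x) (hpy : ¬ (p : ℤ) ∣ y) (hpz : ¬ (p : ℤ) ∣ z)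
    (h : x ^ p + y ^ p + z ^ p = 0) (hqx : (q : ℤ) ∣ x) : False := by
  have : Fact q.Prime := ⟨hq⟩
  have hodd : Odd p := hp.odd_of_ne_two hp2
  have hpp : Prime (p : ℤ) := Nat.prime_iff_prime_int.mp hp
  have hqq : Prime (q : ℤ) := Nat.prime_iff_prime_int.mp hq
  have hp0 : p ≠ 0 := hp.ne_zero
  -- `p` does not divide the pairwise sums
  have hpyz : ¬ (p : ℤ) ∣ y + z := by
    intro hd
    have : (p : ℤ) ∣ y ^ p + z ^ p := hd.trans (Odd.add_dvd_pow_add_pow y z hodd)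
    have hx : (p : ℤ) ∣ x ^ p := by
      have e : x ^ p = -(y ^ p + z ^ p) := by linarith
      rw [e]; exact (dvd_neg).mpr this
    exact hpx (hpp.dvd_of_dvd_pow hx)
  have hpzx : ¬ (p : ℤ) ∣ z + x := by
    intro hd
    have : (p : ℤ) ∣ z ^ p + x ^ p := hd.trans (Odd.add_dvd_pow_add_pow z x hodd)
    have hy' : (p : ℤ) ∣ y ^ p := by
      have e : y ^ p = -(z ^ p + x ^ p) := by linarith
      rw [e]; exact (dvd_neg).mpr this
    exact hpy (hpp.dvd_of_dvd_pow hy')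
  have hpxy : ¬ (p : ℤ) ∣ x + y := by
    intro hd
    have : (p : ℤ) ∣ x ^ p + y ^ p := hd.trans (Odd.add_dvd_pow_add_pow x y hodd)
    have hz' : (p : ℤ) ∣ z ^ p := by
      have e : z ^ p = -(x ^ p + y ^ p) := by linarith
      rw [e]; exact (dvd_neg).mpr this
    exact hpz (hpp.dvd_of_dvd_pow hz')
  -- the three factorisations
  have e1 : (y + z) * sgPhi p y z = (-x) ^ p := by
    rw [hodd.neg_pow, mul_comm, sgPhi_mul hodd]; linarith
  have e2 : (z + x) * sgPhi p z x = (-y) ^ p := by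
    rw [hodd.neg_pow, mul_comm, sgPhi_mul hodd]; linarith
  have e3 : (x + y) * sgPhi p x y = (-z) ^ p := by
    rw [hodd.neg_pow, mul_comm, sgPhi_mul hodd]; linarith
  obtain ⟨a, ha⟩ := Int.eq_pow_of_mul_eq_pow_odd_left (isCoprime_add_sgPhi hp hyz hpyz) hodd e1
  obtain ⟨α, hα⟩ := Int.eq_pow_of_mul_eq_pow_odd_right (isCoprime_add_sgPhi hp hyz hpyz) hodd e1
  obtain ⟨b, hb⟩ := Int.eq_pow_of_mul_eq_pow_odd_left (isCoprime_add_sgPhi hp hzx hpzx) hodd e2
  obtain ⟨c, hc⟩ := Int.eq_pow_of_mul_eq_pow_odd_left (isCoprime_add_sgPhi hp hxy hpxy) hodd e3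
  obtain ⟨γ, hγ⟩ := Int.eq_pow_of_mul_eq_pow_odd_right (isCoprime_add_sgPhi hp hxy hpxy) hodd e3
  -- `q` divides neither `y` nor `z`
  have hqy : ¬ (q : ℤ) ∣ y := fun hd =>
    hqq.not_isUnit (hxy.isUnit_of_dvd' hqx hd)
  have hqz : ¬ (q : ℤ) ∣ z := fun hd =>
    hqq.not_isUnit (hzx.isUnit_of_dvd' hd hqx)
  -- reduce mod `q`
  have hx0 : ((x : ℤ) : ZMod q) = 0 := (ZMod.intCast_zmod_eq_zero_iff_dvd x q).mpr hqx
  have habc : (b : ZMod q) ^ p + (c : ZMod q) ^ p + ((-a : ℤ) : ZMod q) ^ p = 0 := by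
    have : b ^ p + c ^ p + (-a) ^ p = 2 * x := by
      rw [hodd.neg_pow, ← ha, ← hb, ← hc]; ring
    have := congrArg (Int.cast : ℤ → ZMod q) this
    push_cast at this
    rw [hx0, mul_zero] at this
    push_cast
    exact this
  have hprod := h1 _ _ _ habc
  have hbq : ¬ (q : ℤ) ∣ b := by
    intro hd
    have : (q : ℤ) ∣ z + x := by rw [hb]; exact dvd_pow hd hp0
    exact hqz ((dvd_add_left hqx).mp this)
  have hcq : ¬ (q : ℤ) ∣ c := by
    intro hd
    have : (q : ℤ) ∣ x + y := by rw [hc]; exact dvd_pow hd hp0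
    exact hqy ((dvd_add_right hqx).mp this)
  have hb0 : (b : ZMod q) ≠ 0 := fun h0 => hbq ((ZMod.intCast_zmod_eq_zero_iff_dvd b q).mp h0)
  have hc0 : (c : ZMod q) ≠ 0 := fun h0 => hcq ((ZMod.intCast_zmod_eq_zero_iff_dvd c q).mp h0)
  have ha0 : ((-a : ℤ) : ZMod q) = 0 := by
    rcases mul_eq_zero.mp hprod with h' | h'
    · rcases mul_eq_zero.mp h' with h'' | h''
      · exact absurd h'' hb0
      · exact absurd h'' hc0
    · exact h'
  have hqa : (q : ℤ) ∣ a := by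
    have := (ZMod.intCast_zmod_eq_zero_iff_dvd (-a) q).mp ha0
    exact (dvd_neg).mp this
  have hqyz : (q : ℤ) ∣ y + z := by rw [ha]; exact dvd_pow hqa hp0
  -- `α ^ p ≡ p * y ^ (p - 1)` and `γ ^ p ≡ y ^ (p - 1)` mod `q`
  have hαq : ((α : ℤ) : ZMod q) ^ p = (p : ZMod q) * (y : ZMod q) ^ (p - 1) := by
    have hd : (q : ℤ) ∣ sgPhi p y z - p * y ^ (p - 1) := hqyz.trans (sgPhi_sub_dvd p y z)
    have := (ZMod.intCast_zmod_eq_zero_iff_dvd _ q).mpr hd
    rw [hα] at this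
    push_cast at this
    exact sub_eq_zero.mp this
  have hγq : ((γ : ℤ) : ZMod q) ^ p = (y : ZMod q) ^ (p - 1) := by
    have hd : (q : ℤ) ∣ sgPhi p x y - (-y) ^ (p - 1) :=
      hqx.trans (sgPhi_sub_dvd_left hp.pos x y)
    have := (ZMod.intCast_zmod_eq_zero_iff_dvd _ q).mpr hd
    rw [hγ] at this
    push_cast at this
    have hev : Even (p - 1) := by
      obtain ⟨k, hk⟩ := hodd
      exact ⟨k, by omega⟩
    rw [hev.neg_pow] at this
    exact sub_eq_zero.mp this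
  have hy0 : (y : ZMod q) ≠ 0 := fun h0 => hqy ((ZMod.intCast_zmod_eq_zero_iff_dvd y q).mp h0)
  have hγ0 : ((γ : ℤ) : ZMod q) ^ p ≠ 0 := by
    rw [hγq]; exact pow_ne_zero _ hy0
  apply h2 ((α : ZMod q) * ((γ : ZMod q))⁻¹)
  rw [mul_pow, inv_pow, hαq, ← hγq]
  field_simp

/-- **Sophie Germain's theorem**, symmetric form. -/
theorem sophieGermain_symm {p q : ℕ} (hp : p.Prime) (hp2 : p ≠ 2) (hq : q.Prime)
    (h1 : ∀ x y z : ZMod q, x ^ p + y ^ p + z ^ p = 0 → x * y * z = 0)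
    (h2 : ∀ t : ZMod q, t ^ p ≠ (p : ZMod q))
    {x y z : ℤ} (hxy : IsCoprime x y) (hyz : IsCoprime y z) (hzx : IsCoprime z x)
    (h : x ^ p + y ^ p + z ^ p = 0) : (p : ℤ) ∣ x * y * z := by
  have : Fact q.Prime := ⟨hq⟩
  have hpp : Prime (p : ℤ) := Nat.prime_iff_prime_int.mp hp
  have hqq : Prime (q : ℤ) := Nat.prime_iff_prime_int.mp hq
  by_contra hnd
  have hpx : ¬ (p : ℤ) ∣ x := fun hd => hnd (Dvd.dvd.mul_right (Dvd.dvd.mul_right hd y) z)
  have hpy : ¬ (p : ℤ) ∣ y := fun hd => hnd (Dvd.dvd.mul_right (Dvd.dvd.mul_left hd x) z)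
  have hpz : ¬ (p : ℤ) ∣ z := fun hd => hnd (Dvd.dvd.mul_left hd (x * y))
  have hmod : (x : ZMod q) ^ p + (y : ZMod q) ^ p + (z : ZMod q) ^ p = 0 := by
    have := congrArg (Int.cast : ℤ → ZMod q) h
    push_cast at this
    exact this
  have hprod := h1 _ _ _ hmod
  rcases mul_eq_zero.mp hprod with h' | h'
  · rcases mul_eq_zero.mp h' with h'' | h''
    · exact sophieGermain_aux hp hp2 hq h1 h2 hxy hyz hzx hpx hpy hpz h
        ((ZMod.intCast_zmod_eq_zero_iff_dvd x q).mp h'')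
    · exact sophieGermain_aux hp hp2 hq h1 h2 hyz hzx hxy hpy hpz hpx (by linarith)
        ((ZMod.intCast_zmod_eq_zero_iff_dvd y q).mp h'')
  · exact sophieGermain_aux hp hp2 hq h1 h2 hzx hxy hyz hpz hpx hpy (by linarith)
      ((ZMod.intCast_zmod_eq_zero_iff_dvd z q).mp h')

/-- **Sophie Germain's theorem**, Fermat form: the first case of FLT for exponent `p` holds as soon
as an auxiliary prime `q` exists. -/
theorem caseI_of_auxPrime {p q : ℕ} (hp : p.Prime) (hp2 : p ≠ 2) (hq : q.Prime)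
    (h1 : ∀ x y z : ZMod q, x ^ p + y ^ p + z ^ p = 0 → x * y * z = 0)
    (h2 : ∀ t : ZMod q, t ^ p ≠ (p : ZMod q))
    {a b c : ℤ} (h : a ^ p + b ^ p = c ^ p) (hab : IsCoprime a b) : (p : ℤ) ∣ a * b * c := by
  have hodd : Odd p := hp.odd_of_ne_two hp2
  have hp0 : 0 < p := hp.pos
  have hac : IsCoprime a c := by
    have h3 : IsCoprime a (b ^ p) := hab.pow_right
    have h4 : IsCoprime a (b ^ p + a * a ^ (p - 1)) := h3.add_mul_left_right _
    have e : b ^ p + a * a ^ (p - 1) = c ^ p := by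
      rw [← pow_succ', Nat.sub_add_cancel hp0]; linarith
    rw [e] at h4
    exact (IsCoprime.pow_right_iff hp0).mp h4
  have hbc : IsCoprime b c := by
    have h3 : IsCoprime b (a ^ p) := hab.symm.pow_right
    have h4 : IsCoprime b (a ^ p + b * b ^ (p - 1)) := h3.add_mul_left_right _
    have e : a ^ p + b * b ^ (p - 1) = c ^ p := by
      rw [← pow_succ', Nat.sub_add_cancel hp0]; linarith
    rw [e] at h4
    exact (IsCoprime.pow_right_iff hp0).mp h4
  have key := sophieGermain_symm hp hp2 hq h1 h2 (x := a) (y := b) (z := -c) hab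
    hbc.neg_right hac.neg_right.symm (by rw [hodd.neg_pow]; linarith)
  have e : a * b * -c = -(a * b * c) := by ring
  rw [e] at key
  exact (dvd_neg).mp key

/-! ### The four instances -/

section Instances

private lemma sg_cases2 {q : ℕ} (hq : q.Prime) {p : ℕ}
    (hpow : ∀ t : ZMod q, t ^ p = 0 ∨ t ^ p = 1 ∨ t ^ p = -1)
    (hsum : ∀ u v w : ZMod q, (u = 1 ∨ u = -1) → (v = 1 ∨ v = -1) → (w = 1 ∨ w = -1) →
      u + v + w ≠ 0) :
    ∀ x y z : ZMod q, x ^ p + y ^ p + z ^ p = 0 → x * y * z = 0 := by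
  have : Fact q.Prime := ⟨hq⟩
  intro x y z h
  by_contra hne
  have hx : x ^ p ≠ 0 := pow_ne_zero _ (fun h0 => hne (by rw [h0]; ring))
  have hy : y ^ p ≠ 0 := pow_ne_zero _ (fun h0 => hne (by rw [h0]; ring))
  have hz : z ^ p ≠ 0 := pow_ne_zero _ (fun h0 => hne (by rw [h0]; ring))
  exact hsum _ _ _ ((hpow x).resolve_left hx) ((hpow y).resolve_left hy)
    ((hpow z).resolve_left hz) h

private lemma sg_cases4 {q : ℕ} (hq : q.Prime) {p : ℕ} (r : ZMod q)
    (hpow : ∀ t : ZMod q, t ^ p = 0 ∨ t ^ p = 1 ∨ t ^ p = -1 ∨ t ^ p = r ∨ t ^ p = -r)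
    (hsum : ∀ u v w : ZMod q, (u = 1 ∨ u = -1 ∨ u = r ∨ u = -r) →
      (v = 1 ∨ v = -1 ∨ v = r ∨ v = -r) → (w = 1 ∨ w = -1 ∨ w = r ∨ w = -r) →
      u + v + w ≠ 0) :
    ∀ x y z : ZMod q, x ^ p + y ^ p + z ^ p = 0 → x * y * z = 0 := by
  have : Fact q.Prime := ⟨hq⟩
  intro x y z h
  by_contra hne
  have hx : x ^ p ≠ 0 := pow_ne_zero _ (fun h0 => hne (by rw [h0]; ring))
  have hy : y ^ p ≠ 0 := pow_ne_zero _ (fun h0 => hne (by rw [h0]; ring))
  have hz : z ^ p ≠ 0 := pow_ne_zero _ (fun h0 => hne (by rw [h0]; ring))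
  exact hsum _ _ _ ((hpow x).resolve_left hx) ((hpow y).resolve_left hy)
    ((hpow z).resolve_left hz) h

/-- First case of Fermat's Last Theorem for exponent `5` (auxiliary prime `11`). -/
theorem caseI_five {a b c : ℤ} (h : a ^ 5 + b ^ 5 = c ^ 5) (hab : IsCoprime a b) :
    (5 : ℤ) ∣ a * b * c := by
  have h1 : ∀ x y z : ZMod 11, x ^ 5 + y ^ 5 + z ^ 5 = 0 → x * y * z = 0 := by
    refine sg_cases2 (by norm_num) (by decide) ?_
    rintro u v w (rfl | rfl) (rfl | rfl) (rfl | rfl) <;> decide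
  have h2 : ∀ t : ZMod 11, t ^ 5 ≠ ((5 : ℕ) : ZMod 11) := by decide
  exact_mod_cast caseI_of_auxPrime (p := 5) (q := 11) (by norm_num) (by norm_num) (by norm_num)
    h1 h2 h hab

/-- First case of Fermat's Last Theorem for exponent `7` (auxiliary prime `29`). -/
theorem caseI_seven {a b c : ℤ} (h : a ^ 7 + b ^ 7 = c ^ 7) (hab : IsCoprime a b) :
    (7 : ℤ) ∣ a * b * c := by
  have h1 : ∀ x y z : ZMod 29, x ^ 7 + y ^ 7 + z ^ 7 = 0 → x * y * z = 0 := by
    refine sg_cases4 (by norm_num) 12 (by decide) ?_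
    rintro u v w (rfl | rfl | rfl | rfl) (rfl | rfl | rfl | rfl) (rfl | rfl | rfl | rfl) <;>
      decide
  have h2 : ∀ t : ZMod 29, t ^ 7 ≠ ((7 : ℕ) : ZMod 29) := by decide
  exact_mod_cast caseI_of_auxPrime (p := 7) (q := 29) (by norm_num) (by norm_num) (by norm_num)
    h1 h2 h hab

/-- First case of Fermat's Last Theorem for exponent `11` (auxiliary prime `23`). -/
theorem caseI_eleven {a b c : ℤ} (h : a ^ 11 + b ^ 11 = c ^ 11) (hab : IsCoprime a b) :
    (11 : ℤ) ∣ a * b * c := by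
  have h1 : ∀ x y z : ZMod 23, x ^ 11 + y ^ 11 + z ^ 11 = 0 → x * y * z = 0 := by
    refine sg_cases2 (by norm_num) (by decide) ?_
    rintro u v w (rfl | rfl) (rfl | rfl) (rfl | rfl) <;> decide
  have h2 : ∀ t : ZMod 23, t ^ 11 ≠ ((11 : ℕ) : ZMod 23) := by decide
  exact_mod_cast caseI_of_auxPrime (p := 11) (q := 23) (by norm_num) (by norm_num) (by norm_num)
    h1 h2 h hab

/-- First case of Fermat's Last Theorem for exponent `13` (auxiliary prime `53`). -/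
theorem caseI_thirteen {a b c : ℤ} (h : a ^ 13 + b ^ 13 = c ^ 13) (hab : IsCoprime a b) :
    (13 : ℤ) ∣ a * b * c := by
  have h1 : ∀ x y z : ZMod 53, x ^ 13 + y ^ 13 + z ^ 13 = 0 → x * y * z = 0 := by
    refine sg_cases4 (by norm_num) 23 (by decide) ?_
    rintro u v w (rfl | rfl | rfl | rfl) (rfl | rfl | rfl | rfl) (rfl | rfl | rfl | rfl) <;>
      decide
  have h2 : ∀ t : ZMod 53, t ^ 13 ≠ ((13 : ℕ) : ZMod 53) := by decide
  exact_mod_cast caseI_of_auxPrime (p := 13) (q := 53) (by norm_num) (by norm_num) (by norm_num)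
    h1 h2 h hab

end Instances

end Fermat.Agent.S11
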