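import Mathlib.NumberTheory.NumberField.Cyclotomic.Basic
import Mathlib.NumberTheory.FLT.Basic
import Fermat.Prelude.Def_FLTPrelim_FreyPackage
import Fermat.Agent.S11.SophieGermain

/-!
# Reduction of Fermat's Last Theorem for a prime exponent `p` to the generalised equation

`FLTGen p hζ` is the analogue for a prime `p` of Mathlib's `FermatLastTheoremForThreeGen`:
the equation `a ^ p + b ^ p = u * c ^ p` has no solution in the ring of integers of the `p`-th
cyclotomic field with `u` a unit, `c ≠ 0`, `λ ∤ a`, `λ ∤ b`, `λ ∣ c`, and `a`, `b` coprime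
(where `λ = ζ - 1`).

`fermat_of_caseI_of_gen`: the first case plus `FLTGen` give Fermat's Last Theorem for exponent `p`
for coprime integers; `not_freyPackage_of_caseI_of_gen` is the same for Frey packages.
-/

set_option autoImplicit false

namespace Fermat.Agent.S11

open NumberField

/-- The generalised Fermat equation `a ^ p + b ^ p = u * c ^ p` has no solutions in `𝓞 K` with
`u` a unit, `c ≠ 0`, `λ ∤ a`, `λ ∤ b`, `λ ∣ c` and `a`, `b` coprime, where `λ = ζ - 1`. -/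
def FLTGen (p : ℕ) [NeZero p] {K : Type*} [Field K] {ζ : K} (hζ : IsPrimitiveRoot ζ p) : Prop :=
  ∀ a b c : 𝓞 K, ∀ u : (𝓞 K)ˣ, c ≠ 0 → ¬ (hζ.toInteger - 1) ∣ a → ¬ (hζ.toInteger - 1) ∣ b →
    (hζ.toInteger - 1) ∣ c → IsCoprime a b → a ^ p + b ^ p ≠ u * c ^ p

lemma isCoprime_left_of_fermat {p : ℕ} (hp : 0 < p) {a b c : ℤ} (h : a ^ p + b ^ p = c ^ p)
    (hab : IsCoprime a b) : IsCoprime a c := by
  have h3 : IsCoprime a (b ^ p) := hab.pow_right
  have h4 : IsCoprime a (b ^ p + a * a ^ (p - 1)) := h3.add_mul_left_right _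
  have e : b ^ p + a * a ^ (p - 1) = c ^ p := by
    rw [← pow_succ', Nat.sub_add_cancel hp]; linarith
  rw [e] at h4
  exact (IsCoprime.pow_right_iff hp).mp h4

lemma isCoprime_right_of_fermat {p : ℕ} (hp : 0 < p) {a b c : ℤ} (h : a ^ p + b ^ p = c ^ p)
    (hab : IsCoprime a b) : IsCoprime b c :=
  isCoprime_left_of_fermat hp (by linarith) hab.symm

section

variable {p : ℕ} [hp : Fact p.Prime] {K : Type*} [Field K] [NumberField K]
  [IsCyclotomicExtension {p} ℚ K] {ζ : K} (hζ : IsPrimitiveRoot ζ p)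

/-- For a rational integer `n`, `λ ∣ n` in `𝓞 K` iff `p ∣ n` in `ℤ`. -/
lemma lambda_dvd_intCast_iff (hp2 : p ≠ 2) (n : ℤ) :
    (hζ.toInteger - 1) ∣ (n : 𝓞 K) ↔ (p : ℤ) ∣ n := by
  rw [← Ideal.norm_dvd_iff (hζ.prime_norm_toInteger_sub_one_of_prime_ne_two' hp2),
    hζ.norm_toInteger_sub_one_of_prime_ne_two' hp2]

/-- `FLTGen` follows from the descent theorem in "Washington form"
(`x ^ p + y ^ p = ε * λ ^ (p * m) * z ^ p` with `1 ≤ m`, `x`, `y` coprime and `λ ∤ z`). -/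
theorem FLTGen_of_washington
    (H : ∀ {x y z : 𝓞 K} {ε : (𝓞 K)ˣ} {m : ℕ}, 1 ≤ m → IsCoprime x y →
      ¬ (hζ.toInteger - 1) ∣ z →
      x ^ p + y ^ p = ε * (hζ.toInteger - 1) ^ (p * m) * z ^ p → False) :
    FLTGen p hζ := by
  intro a b c u hc _ _ hlc hab h
  have hprime : Prime (hζ.toInteger - 1) := hζ.zeta_sub_one_prime'
  have hfin : FiniteMultiplicity (hζ.toInteger - 1) c :=
    FiniteMultiplicity.of_not_isUnit hprime.not_isUnit hc
  obtain ⟨z, hz, hnz⟩ := hfin.exists_eq_pow_mul_and_not_dvd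
  have hm : 1 ≤ multiplicity (hζ.toInteger - 1) c :=
    hfin.le_multiplicity_of_pow_dvd (by simpa using hlc)
  refine H (ε := u) hm hab hnz ?_
  rw [h]
  conv_lhs => rw [hz]
  ring

/-- The generalised equation has no solution coming from `ℤ` with `p ∣ c`. -/
lemma fermat_ne_of_gen_of_dvd (hp2 : p ≠ 2) (hgen : FLTGen p hζ) {a b c : ℤ} (hc : c ≠ 0)
    (hpa : ¬ (p : ℤ) ∣ a) (hpb : ¬ (p : ℤ) ∣ b) (hpc : (p : ℤ) ∣ c) (hab : IsCoprime a b) :
    a ^ p + b ^ p ≠ c ^ p := by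
  intro h
  refine hgen a b c 1 (by simpa using hc) ?_ ?_ ?_ (IsCoprime.intCast hab) ?_
  · rwa [lambda_dvd_intCast_iff hζ hp2]
  · rwa [lambda_dvd_intCast_iff hζ hp2]
  · rwa [lambda_dvd_intCast_iff hζ hp2]
  · simpa using mod_cast h

/-- The first case together with the generalised equation gives Fermat's Last Theorem for the
exponent `p` (for coprime integers). -/
theorem fermat_of_caseI_of_gen (hp2 : p ≠ 2)
    (hI : ∀ {a b c : ℤ}, a ^ p + b ^ p = c ^ p → IsCoprime a b → (p : ℤ) ∣ a * b * c)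
    (hgen : FLTGen p hζ) {a b c : ℤ} (ha : a ≠ 0) (hb : b ≠ 0) (hc : c ≠ 0)
    (hab : IsCoprime a b) : a ^ p + b ^ p ≠ c ^ p := by
  intro h
  have hodd : Odd p := hp.out.odd_of_ne_two hp2
  have hpp : Prime (p : ℤ) := Nat.prime_iff_prime_int.mp hp.out
  have hac : IsCoprime a c := isCoprime_left_of_fermat hp.out.pos h hab
  have hbc : IsCoprime b c := isCoprime_right_of_fermat hp.out.pos h hab
  have hnot : ∀ {x y : ℤ}, IsCoprime x y → (p : ℤ) ∣ x → ¬ (p : ℤ) ∣ y := fun hxy hx hy =>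
    hpp.not_isUnit (hxy.isUnit_of_dvd' hx hy)
  rcases (hpp.dvd_mul.mp (hI h hab)) with hd | hd
  · rcases (hpp.dvd_mul.mp hd) with hd | hd
    · -- `p ∣ a`: use `c ^ p + (-b) ^ p = a ^ p`
      refine fermat_ne_of_gen_of_dvd hζ hp2 hgen (a := c) (b := -b) (c := a) ha
        (hnot hac hd) ?_ hd hbc.symm.neg_right ?_
      · rw [dvd_neg]; exact hnot hab hd
      · rw [hodd.neg_pow]; linarith
    · -- `p ∣ b`: use `c ^ p + (-a) ^ p = b ^ p`
      refine fermat_ne_of_gen_of_dvd hζ hp2 hgen (a := c) (b := -a) (c := b) hb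
        (hnot hbc hd) ?_ hd hac.symm.neg_right ?_
      · rw [dvd_neg]; exact hnot hab.symm hd
      · rw [hodd.neg_pow]; linarith
  · exact fermat_ne_of_gen_of_dvd hζ hp2 hgen hc (hnot hac.symm hd) (hnot hbc.symm hd) hd hab h

/-- No Frey package has exponent `p`, given the first case and the generalised equation. -/
theorem not_freyPackage_of_caseI_of_gen (hp2 : p ≠ 2)
    (hI : ∀ {a b c : ℤ}, a ^ p + b ^ p = c ^ p → IsCoprime a b → (p : ℤ) ∣ a * b * c)
    (hgen : FLTGen p hζ) (P : FreyPackage) (hP : P.p = p) : False := by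
  have hab : IsCoprime P.a P.b := by
    rw [Int.isCoprime_iff_gcd_eq_one]
    have := P.hgcdab
    rw [← Int.coe_gcd] at this
    exact_mod_cast this
  have h := P.hFLT
  rw [hP] at h
  exact fermat_of_caseI_of_gen hζ hp2 hI hgen P.ha0 P.hb0 P.hc0 hab h

end

end Fermat.Agent.S11
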