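import Mathlib.NumberTheory.NumberField.Cyclotomic.Ideal
import Fermat.Agent.S11.KummerDescent
import Fermat.Agent.S11.Reduction

/-!
# The Kummer setting for the ring of integers of a cyclotomic field of prime conductor

We instantiate `KummerSetting` for `𝓞 K`, `K` a `p`-th cyclotomic extension of `ℚ`, and
deduce `FLTGen p hζ` from principality of `𝓞 K` and Kummer's lemma.
-/

set_option autoImplicit false

namespace Fermat.Agent.S11

open NumberField Polynomial

section

variable {p : ℕ} [hp : Fact p.Prime] {K : Type*} [Field K] [NumberField K]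
  [IsCyclotomicExtension {p} ℚ K] {ζ : K} (hζ : IsPrimitiveRoot ζ p)

/-- Every element of `𝓞 K` is congruent to a rational integer modulo `ζ - 1`. -/
lemma exists_int_sub_dvd (x : 𝓞 K) : ∃ n : ℤ, (hζ.toInteger - 1) ∣ x - n := by
  obtain ⟨f, hf⟩ := hζ.integralPowerBasis.exists_eq_aeval' x
  rw [hζ.integralPowerBasis_gen] at hf
  refine ⟨f.eval 1, ?_⟩
  have h1 : x = (f.map (algebraMap ℤ (𝓞 K))).eval hζ.toInteger := by
    rw [hf, Polynomial.aeval_def, Polynomial.eval₂_eq_eval_map]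
  have h2 : ((f.eval 1 : ℤ) : 𝓞 K) = (f.map (algebraMap ℤ (𝓞 K))).eval 1 := by
    rw [Polynomial.eval_map, Polynomial.eval₂_at_one]
    simp
  rw [h1, h2]
  exact Polynomial.sub_dvd_eval_sub _ _ _

/-- The Kummer setting for `𝓞 K`, given Kummer's lemma. -/
theorem kummerSetting (hp2 : p ≠ 2)
    (hKummer : ∀ u : (𝓞 K)ˣ, (∃ n : ℤ, (p : 𝓞 K) ∣ (u : 𝓞 K) - n) → ∃ v : (𝓞 K)ˣ, u = v ^ p) :
    KummerSetting p hζ.toInteger where
  prime := hp.out
  odd := hp2
  root := hζ.toInteger_isPrimitiveRoot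
  pi_prime := hζ.zeta_sub_one_prime'
  assoc := IsCyclotomicExtension.Rat.associated_zeta_sub_one_pow_prime p hζ
  resid := exists_int_sub_dvd hζ
  int_dvd := fun n hn => (lambda_dvd_intCast_iff hζ hp2 n).1 hn
  kummer := hKummer

/-- The generalised Fermat equation has no solution, given principality of `𝓞 K` and
Kummer's lemma. -/
theorem FLTGen_of_pid_of_kummer (hp2 : p ≠ 2) [IsPrincipalIdealRing (𝓞 K)]
    (hKummer : ∀ u : (𝓞 K)ˣ, (∃ n : ℤ, (p : 𝓞 K) ∣ (u : 𝓞 K) - n) → ∃ v : (𝓞 K)ˣ, u = v ^ p) :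
    FLTGen p hζ := by
  intro a b c u hc _ hb hlc hab
  exact (kummerSetting hζ hp2 hKummer).no_solution a b c u hc hlc hb hab

end

end Fermat.Agent.S11
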