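import Fermat.Agent.S11.PIDGeneric

set_option autoImplicit false
set_option linter.style.haveILetI false

open NumberField Polynomial InfinitePlace Nat Real Ideal IsCyclotomicExtension.Rat

namespace Fermat.Agent.S11.PID

variable (K : Type*) [Field K] [NumberField K]

theorem minkowski_eleven [IsCyclotomicExtension {11} ℚ K] :
    ⌊(4 / π) ^ nrComplexPlaces K *
      ((Module.finrank ℚ K)! / (Module.finrank ℚ K) ^ (Module.finrank ℚ K) * √|discr K|)⌋₊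
      ≤ 59 := by
  have : Fact (Nat.Prime 11) := ⟨by norm_num⟩
  rw [IsCyclotomicExtension.Rat.discr_prime 11 K, IsCyclotomicExtension.finrank (n := 11) K
    (cyclotomic.irreducible_rat (by simp)),
    IsCyclotomicExtension.Rat.nrComplexPlaces_eq_totient_div_two 11,
    totient_prime (by norm_num : Nat.Prime 11)]
  have hs : √|((((-1) ^ ((11 - 1) / 2) * (11 : ℕ) ^ (11 - 2) : ℤ)) : ℝ)| < 48559 := by
    rw [Real.sqrt_lt' (by norm_num)]
    norm_num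
  have hs0 : 0 ≤ √|((((-1) ^ ((11 - 1) / 2) * (11 : ℕ) ^ (11 - 2) : ℤ)) : ℝ)| :=
    Real.sqrt_nonneg _
  have hfac : ((11 - 1)! : ℝ) / ((11 - 1 : ℕ) : ℝ) ^ (11 - 1) = 3628800 / 10000000000 := by
    norm_num [Nat.factorial]
  have hpow : ((4 : ℝ) / π) ^ ((11 - 1) / 2) < 1.2733 ^ ((11 - 1) / 2) :=
    pow_lt_pow_left₀ four_div_pi_lt four_div_pi_pos.le (by norm_num)
  have hpow0 : (0 : ℝ) < ((4 : ℝ) / π) ^ ((11 - 1) / 2) := by positivity
  apply Nat.le_of_lt_succ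
  rw [Nat.floor_lt (by positivity)]
  rw [hfac]
  calc ((4 : ℝ) / π) ^ ((11 - 1) / 2) * (3628800 / 10000000000 *
        √|((((-1) ^ ((11 - 1) / 2) * (11 : ℕ) ^ (11 - 2) : ℤ)) : ℝ)|)
      ≤ 1.2733 ^ ((11 - 1) / 2) * (3628800 / 10000000000 * 48559) := by gcongr
    _ < ((59 + 1 : ℕ) : ℝ) := by norm_num

theorem root_23_11 : ∑ i ∈ Finset.range 11, (((13 : ℤ) : ZMod 23)) ^ i = 0 := by decide

theorem exists_over_23 [IsCyclotomicExtension {11} ℚ K] :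
    ∃ P ∈ primesOver (span {((23 : ℕ) : ℤ)}) (𝓞 K), Submodule.IsPrincipal P := by
  haveI : Fact (Nat.Prime 11) := ⟨by norm_num⟩
  haveI : Fact (Nat.Prime 23) := ⟨by norm_num⟩
  have hΦ := zeta_geom_sum_eq_zero 11 K
  simp only [Finset.sum_range_succ, Finset.sum_range_zero, pow_zero, pow_one, zero_add] at hΦ
  set ζ := (IsCyclotomicExtension.zeta_spec 11 ℚ K).toInteger with hζ
  refine exists_primesOver_isPrincipal_of_data 11 K 23 13 root_23_11
    ((1) + (-1) * ζ + (1) * ζ ^ 3)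
    ((8) + (-2) * ζ + (-1) * ζ ^ 2 + (-8) * ζ ^ 3 + (-5) * ζ ^ 4 + (-3) * ζ ^ 5 + (6) * ζ ^ 6 +
      (12) * ζ ^ 7 + (16) * ζ ^ 8 + (11) * ζ ^ 9)
    ((-5) + (1) * ζ + (4) * ζ ^ 3 + (2) * ζ ^ 4 + (1) * ζ ^ 5 + (-4) * ζ ^ 6 + (-7) * ζ ^ 7 +
      (-9) * ζ ^ 8 + (-6) * ζ ^ 9)
    ((168) + (13) * ζ + (1) * ζ ^ 2) 95 ?_ ?_ ?_
  · push_cast
    ring
  · push_cast
    linear_combination ((-15) + (5) * ζ + (11) * ζ ^ 2) * hΦ
  · push_cast
    linear_combination ((8) + (-3) * ζ + (-6) * ζ ^ 2) * hΦ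

end Fermat.Agent.S11.PID

namespace Fermat.Agent.S11.PID

theorem order_check_eleven (q : ℕ) (hq : q ≤ 59) (hqp : q.Prime) (h11 : q ≠ 11) (h23 : q ≠ 23) :
    ∃ k, (∀ j < k, 0 < j → ((q : ℕ) : ZMod 11) ^ j ≠ 1) ∧ 59 < q ^ k := by
  interval_cases q <;>
    first
    | (exfalso; exact h11 rfl)
    | (exfalso; exact h23 rfl)
    | (exfalso; revert hqp; norm_num; done)
    | (refine ⟨2, ?_, ?_⟩ <;> [decide; (norm_num; done)])
    | (refine ⟨3, ?_, ?_⟩ <;> [decide; (norm_num; done)])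
    | (refine ⟨4, ?_, ?_⟩ <;> [decide; (norm_num; done)])
    | (refine ⟨6, ?_, ?_⟩ <;> [decide; (norm_num; done)])

theorem pid_eleven (K : Type*) [Field K] [NumberField K] [IsCyclotomicExtension {11} ℚ K] :
    IsPrincipalIdealRing (𝓞 K) := by
  haveI : Fact (Nat.Prime 11) := ⟨by norm_num⟩
  haveI : IsGalois ℚ K := IsCyclotomicExtension.isGalois {11} ℚ K
  refine RingOfIntegers.isPrincipalIdealRing_of_isPrincipal_of_lt_or_isPrincipal_of_mem_primesOver_of_mem_Icc ?_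
  intro q hq hqp
  have hB := minkowski_eleven K
  rw [Finset.mem_Icc] at hq
  have hq59 : q ≤ 59 := hq.2.trans hB
  haveI : Fact q.Prime := ⟨hqp⟩
  by_cases h11 : q = 11
  · subst h11
    obtain ⟨P, hP, h⟩ := exists_primesOver_self_isPrincipal 11 K
    exact ⟨P, hP, Or.inr h⟩
  by_cases h23 : q = 23
  · subst h23
    obtain ⟨P, hP, h⟩ := exists_over_23 K
    exact ⟨P, hP, Or.inr h⟩
  obtain ⟨k, hk, hBk⟩ := order_check_eleven q hq59 hqp h11 h23
  obtain ⟨P, hP, h⟩ := exists_primesOver_lt_pow 11 K q h11 59 k hk hBk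
  exact ⟨P, hP, Or.inl (lt_of_le_of_lt hB h)⟩

end Fermat.Agent.S11.PID
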