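import Mathlib.RingTheory.Ideal.Quotient.Operations
import Mathlib.RingTheory.Coprime.Lemmas
import Mathlib.RingTheory.Prime
import Mathlib.Algebra.BigOperators.Fin
import Mathlib.Tactic

/-!
# Kummer's lemma from unit data: the level argument (abstract part)

Let `R` be a domain, `π` a prime element with `π ^ (p - 1)` associated to the prime number `p`,
such that rational integers divisible by `π` are divisible by `p` and `p`-th powers are congruent
to rational integers modulo `p`.  Let `η j` be units with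
`η j ≡ c j * (1 + d j * π ^ (k j))  mod π ^ (k j + 1)`, where the levels `k j` are pairwise
distinct with `1 ≤ k j ≤ p - 2` and `c j`, `d j` are integers prime to `p`.  If a product
`∏ j, η j ^ e j` is congruent to a rational integer modulo `p`, then `p` divides all `e j`.
-/

set_option autoImplicit false

namespace Fermat.Agent.S11

open Finset

/-- Abstract hypotheses for the level argument. -/
structure LevelSetting {R : Type*} [CommRing R] (p : ℕ) (π : R) : Prop where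
  prime : p.Prime
  pi_prime : Prime π
  assoc : Associated (π ^ (p - 1)) (p : R)
  int_dvd : ∀ n : ℤ, π ∣ (n : R) → (p : ℤ) ∣ n
  pow_int : ∀ x : R, ∃ n : ℤ, (p : R) ∣ x ^ p - n

namespace LevelSetting

variable {R : Type*} [CommRing R] {p : ℕ} {π : R}

lemma one_add_mul_pow_of_sq_eq_zero {Q : Type*} [CommRing Q] {t : Q} (ht : t * t = 0) (a : Q)
    (e : ℕ) : (1 + a * t) ^ e = 1 + e * a * t := by
  induction e with
  | zero => simp
  | succ m ih =>
    rw [pow_succ, ih]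
    have : (1 + (m : Q) * a * t) * (1 + a * t) = 1 + ((m : Q) + 1) * a * t + m * a * a * (t * t) := by
      ring
    rw [this, ht]
    push_cast
    ring

lemma pi_pow_dvd_p (S : LevelSetting p π) {m : ℕ} (hm : m + 1 ≤ p) : π ^ m ∣ (p : R) :=
  (pow_dvd_pow π (by omega)).trans S.assoc.dvd

lemma pi_dvd_int_iff (S : LevelSetting p π) (n : ℤ) : π ∣ (n : R) ↔ (p : ℤ) ∣ n := by
  refine ⟨S.int_dvd n, fun ⟨k, hk⟩ => ?_⟩
  rw [hk]
  push_cast
  have h2 := S.prime.two_le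
  exact Dvd.dvd.mul_right (by simpa using S.pi_pow_dvd_p (m := 1) (by omega)) _

variable [IsDomain R]

/-- The level argument for natural exponents smaller than `p`. -/
theorem eq_zero_of_congr (S : LevelSetting p π) {n : ℕ} (η : Fin n → R) (k : Fin n → ℕ)
    (c d : Fin n → ℤ) (hk : Function.Injective k) (hk1 : ∀ j, 1 ≤ k j)
    (hk2 : ∀ j, k j + 2 ≤ p) (hc : ∀ j, ¬ (p : ℤ) ∣ c j) (hd : ∀ j, ¬ (p : ℤ) ∣ d j)
    (hη : ∀ j, π ^ (k j + 1) ∣ η j - c j * (1 + d j * π ^ k j))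
    (e : Fin n → ℕ) (he : ∀ j, e j < p) (N : ℤ)
    (h : (p : R) ∣ (∏ j, η j ^ e j) - N) : ∀ j, e j = 0 := by
  classical
  by_contra hne
  push Not at hne
  have hpp : Prime (p : ℤ) := Nat.prime_iff_prime_int.mp S.prime
  set T : Finset (Fin n) := univ.filter (fun j => e j ≠ 0) with hT
  have hTne : T.Nonempty := by
    obtain ⟨j, hj⟩ := hne
    exact ⟨j, by simp [hT, hj]⟩
  obtain ⟨j0, hj0T, hj0min⟩ := T.exists_min_image k hTne
  have hej0 : e j0 ≠ 0 := by simpa [hT] using hj0T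
  set K := k j0 with hK
  have hK1 : 1 ≤ K := hk1 j0
  have hK2 : K + 2 ≤ p := hk2 j0
  -- the quotient ring modulo `π ^ (K + 1)`
  set I : Ideal R := Ideal.span {π ^ (K + 1)} with hI
  set φ : R →+* R ⧸ I := Ideal.Quotient.mk I with hφ
  have hφ0 : ∀ x : R, φ x = 0 ↔ π ^ (K + 1) ∣ x := fun x => by
    rw [hφ, Ideal.Quotient.eq_zero_iff_mem, hI, Ideal.mem_span_singleton]
  have hφπ : ∀ m, K + 1 ≤ m → φ π ^ m = 0 := fun m hm => by
    rw [← map_pow, hφ0]
    exact pow_dvd_pow π hm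
  set t : R ⧸ I := φ π ^ K with ht
  have htt : t * t = 0 := by
    rw [ht, ← pow_add]
    exact hφπ _ (by omega)
  -- images of the `η j`
  have hφη : ∀ j, K ≤ k j → φ (η j) = (c j : R ⧸ I) * (1 + (d j : R ⧸ I) * φ π ^ k j) := by
    intro j hj
    have h1 : π ^ (K + 1) ∣ η j - c j * (1 + d j * π ^ k j) :=
      (pow_dvd_pow π (by omega)).trans (hη j)
    have h2 := (hφ0 _).mpr h1
    rw [map_sub, sub_eq_zero] at h2
    rw [h2]
    simp
  have hφη0 : φ (η j0) = (c j0 : R ⧸ I) * (1 + (d j0 : R ⧸ I) * t) := hφη j0 le_rfl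
  have hφηj : ∀ j, j ≠ j0 → φ (η j) ^ e j = ((c j : R ⧸ I)) ^ e j := by
    intro j hj
    by_cases hej : e j = 0
    · simp [hej]
    · have hjT : j ∈ T := by simp [hT, hej]
      have h1 : K ≤ k j := hj0min j hjT
      have h2 : k j ≠ K := fun h => hj (hk h)
      rw [hφη j h1, hφπ (k j) (by omega)]
      simp
  -- the product
  set C' : ℤ := ∏ j ∈ univ.erase j0, c j ^ e j with hC'
  set C : ℤ := c j0 ^ e j0 * C' with hC
  have hprod : φ (∏ j, η j ^ e j) = (C : R ⧸ I) * (1 + (e j0 : R ⧸ I) * (d j0 : R ⧸ I) * t) := by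
    rw [map_prod, ← Finset.mul_prod_erase univ _ (Finset.mem_univ j0)]
    have h1 : ∏ j ∈ univ.erase j0, φ (η j ^ e j) = (C' : R ⧸ I) := by
      rw [hC']
      push_cast
      refine Finset.prod_congr rfl fun j hj => ?_
      rw [map_pow]
      exact hφηj j (Finset.ne_of_mem_erase hj)
    rw [h1, map_pow, hφη0, mul_pow, one_add_mul_pow_of_sq_eq_zero htt, hC]
    push_cast
    ring
  have hN : φ (∏ j, η j ^ e j) = (N : R ⧸ I) := by
    have h1 : π ^ (K + 1) ∣ (∏ j, η j ^ e j) - N :=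
      (S.pi_pow_dvd_p (by omega)).trans h
    have h2 := (hφ0 _).mpr h1
    rw [map_sub, sub_eq_zero] at h2
    rw [h2]
    simp
  -- back to `R`
  have hX : π ^ (K + 1) ∣ ((C - N : ℤ) : R) + ((C * e j0 * d j0 : ℤ) : R) * π ^ K := by
    rw [← hφ0]
    have : φ (((C - N : ℤ) : R) + ((C * e j0 * d j0 : ℤ) : R) * π ^ K) =
        (C : R ⧸ I) * (1 + (e j0 : R ⧸ I) * (d j0 : R ⧸ I) * t) - (N : R ⧸ I) := by
      simp only [map_add, map_mul, map_pow, map_intCast, map_natCast, Int.cast_sub,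
        Int.cast_mul, Int.cast_natCast, map_sub, ht]
      ring
    rw [this, ← hprod, hN, sub_self]
  have hπK : π ∣ π ^ K := dvd_pow_self π (by omega)
  have h1 : π ∣ ((C - N : ℤ) : R) := by
    have h2 : π ∣ ((C - N : ℤ) : R) + ((C * e j0 * d j0 : ℤ) : R) * π ^ K :=
      (dvd_pow_self π (Nat.succ_ne_zero K)).trans hX
    exact (dvd_add_left (Dvd.dvd.mul_left hπK _)).mp h2
  have h2 : (p : ℤ) ∣ C - N := S.int_dvd _ h1
  have h3 : π ^ (K + 1) ∣ ((C - N : ℤ) : R) := by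
    obtain ⟨q, hq⟩ := h2
    rw [hq]
    push_cast
    exact Dvd.dvd.mul_right (S.pi_pow_dvd_p (by omega)) _
  have h4 : π ^ (K + 1) ∣ ((C * e j0 * d j0 : ℤ) : R) * π ^ K :=
    (dvd_add_right h3).mp hX
  have h5 : π ∣ ((C * e j0 * d j0 : ℤ) : R) := by
    rw [pow_succ, mul_comm (π ^ K) π] at h4
    exact (mul_dvd_mul_iff_right (pow_ne_zero K S.pi_prime.ne_zero)).mp h4
  have h6 : (p : ℤ) ∣ C * e j0 * d j0 := S.int_dvd _ h5
  rcases hpp.dvd_mul.mp h6 with h7 | h7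
  · rcases hpp.dvd_mul.mp h7 with h8 | h8
    · -- `p ∣ C`
      rw [hC] at h8
      rcases hpp.dvd_mul.mp h8 with h9 | h9
      · exact hc j0 (hpp.dvd_of_dvd_pow h9)
      · rw [hC'] at h9
        obtain ⟨j, -, hj⟩ := (Prime.dvd_finsetProd_iff hpp _).mp h9
        exact hc j (hpp.dvd_of_dvd_pow hj)
    · -- `p ∣ e j0`
      have := Nat.le_of_dvd (Nat.pos_of_ne_zero hej0) (Int.natCast_dvd_natCast.mp h8)
      exact absurd (he j0) (by omega)
  · exact hd j0 h7

/-- The level argument: a product of the `η j` which is congruent to a rational integer modulo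
`p` has all its exponents divisible by `p`. -/
theorem dvd_of_congr (S : LevelSetting p π) {n : ℕ} (η : Fin n → Rˣ) (k : Fin n → ℕ)
    (c d : Fin n → ℤ) (hk : Function.Injective k) (hk1 : ∀ j, 1 ≤ k j)
    (hk2 : ∀ j, k j + 2 ≤ p) (hc : ∀ j, ¬ (p : ℤ) ∣ c j) (hd : ∀ j, ¬ (p : ℤ) ∣ d j)
    (hη : ∀ j, π ^ (k j + 1) ∣ (η j : R) - c j * (1 + d j * π ^ k j))
    (e : Fin n → ℤ) (N : ℤ)
    (h : (p : R) ∣ ((∏ j, η j ^ e j : Rˣ) : R) - N) : ∀ j, (p : ℤ) ∣ e j := by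
  have hp0 : (p : ℤ) ≠ 0 := by exact_mod_cast S.prime.ne_zero
  have hppos : (0 : ℤ) < p := by exact_mod_cast S.prime.pos
  set e' : Fin n → ℕ := fun j => (e j % p).toNat with he'
  set q : Fin n → ℤ := fun j => e j / p with hq
  have hee : ∀ j, e j = (e' j : ℤ) + p * q j := by
    intro j
    have h1 : 0 ≤ e j % p := Int.emod_nonneg _ hp0
    simp only [he', hq, Int.toNat_of_nonneg h1]
    exact (Int.emod_add_mul_ediv (e j) p).symm
  have he'lt : ∀ j, e' j < p := by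
    intro j
    have h1 : 0 ≤ e j % p := Int.emod_nonneg _ hp0
    have h2 : e j % p < p := Int.emod_lt_of_pos _ hppos
    have : ((e' j : ℕ) : ℤ) < p := by simp only [he', Int.toNat_of_nonneg h1]; exact h2
    exact_mod_cast this
  set w : Rˣ := ∏ j, η j ^ q j with hw
  have hsplit : (∏ j, η j ^ e j : Rˣ) = (∏ j, η j ^ e' j) * w ^ p := by
    rw [hw, ← Finset.prod_pow, ← Finset.prod_mul_distrib]
    refine Finset.prod_congr rfl fun j _ => ?_
    rw [hee j, zpow_add, zpow_natCast, mul_comm (p : ℤ), zpow_mul, zpow_natCast]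
  obtain ⟨M, hM⟩ := S.pow_int ((w⁻¹ : Rˣ) : R)
  have hkey : (p : R) ∣ (∏ j, (η j : R) ^ e' j) - (N * M : ℤ) := by
    have h1 : ((∏ j, η j ^ e' j : Rˣ) : R) = ((∏ j, η j ^ e j : Rˣ) : R) * ((w⁻¹ : Rˣ) : R) ^ p := by
      rw [hsplit]
      simp only [Units.val_mul, Units.val_pow_eq_pow_val]
      rw [mul_assoc, ← mul_pow, Units.mul_inv, one_pow, mul_one]
    have h2 : ((∏ j, η j ^ e' j : Rˣ) : R) = ∏ j, (η j : R) ^ e' j := by
      simp [Units.coe_prod]
    rw [← h2, h1]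
    have h3 : ((∏ j, η j ^ e j : Rˣ) : R) * ((w⁻¹ : Rˣ) : R) ^ p - ((N * M : ℤ) : R) =
        (((∏ j, η j ^ e j : Rˣ) : R) - N) * ((w⁻¹ : Rˣ) : R) ^ p +
          N * (((w⁻¹ : Rˣ) : R) ^ p - M) := by
      push_cast
      ring
    rw [h3]
    exact dvd_add (Dvd.dvd.mul_right h _) (Dvd.dvd.mul_left hM _)
  have hzero := S.eq_zero_of_congr (fun j => (η j : R)) k c d hk hk1 hk2 hc hd hη e' he'lt
    (N * M) hkey
  intro j
  rw [hee j, hzero j]
  simp

/-- **Kummer's lemma from unit data** (abstract form): if moreover the `η j` generate the units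
modulo `p`-th powers, then every unit congruent to a rational integer modulo `p` is a `p`-th
power. -/
theorem kummer_of_generation (S : LevelSetting p π) {n : ℕ} (η : Fin n → Rˣ) (k : Fin n → ℕ)
    (c d : Fin n → ℤ) (hk : Function.Injective k) (hk1 : ∀ j, 1 ≤ k j)
    (hk2 : ∀ j, k j + 2 ≤ p) (hc : ∀ j, ¬ (p : ℤ) ∣ c j) (hd : ∀ j, ¬ (p : ℤ) ∣ d j)
    (hη : ∀ j, π ^ (k j + 1) ∣ (η j : R) - c j * (1 + d j * π ^ k j))
    (hgen : ∀ u : Rˣ, ∃ (e : Fin n → ℤ) (v : Rˣ), u = (∏ j, η j ^ e j) * v ^ p)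
    (u : Rˣ) (hcong : ∃ N : ℤ, (p : R) ∣ (u : R) - N) : ∃ v : Rˣ, u = v ^ p := by
  obtain ⟨N, hN⟩ := hcong
  obtain ⟨e, v, hu⟩ := hgen u
  obtain ⟨M, hM⟩ := S.pow_int ((v⁻¹ : Rˣ) : R)
  have h1 : ((∏ j, η j ^ e j : Rˣ) : R) = (u : R) * ((v⁻¹ : Rˣ) : R) ^ p := by
    rw [hu]
    simp only [Units.val_mul, Units.val_pow_eq_pow_val]
    rw [mul_assoc, ← mul_pow, Units.mul_inv, one_pow, mul_one]
  have h2 : (p : R) ∣ ((∏ j, η j ^ e j : Rˣ) : R) - (N * M : ℤ) := by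
    rw [h1]
    have h3 : (u : R) * ((v⁻¹ : Rˣ) : R) ^ p - ((N * M : ℤ) : R) =
        ((u : R) - N) * ((v⁻¹ : Rˣ) : R) ^ p + N * (((v⁻¹ : Rˣ) : R) ^ p - M) := by
      push_cast
      ring
    rw [h3]
    exact dvd_add (Dvd.dvd.mul_right hN _) (Dvd.dvd.mul_left hM _)
  have hdvd := S.dvd_of_congr η k c d hk hk1 hk2 hc hd hη e (N * M) h2
  choose f hf using hdvd
  refine ⟨(∏ j, η j ^ f j) * v, ?_⟩
  rw [hu, mul_pow, ← Finset.prod_pow]
  congr 1
  refine Finset.prod_congr rfl fun j _ => ?_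
  rw [hf j, mul_comm (p : ℤ), zpow_mul, zpow_natCast]

/-- Independence modulo `p`-th powers (the hypothesis of the generation step). -/
theorem indep_of_levels (S : LevelSetting p π) {n : ℕ} (η : Fin n → Rˣ) (k : Fin n → ℕ)
    (c d : Fin n → ℤ) (hk : Function.Injective k) (hk1 : ∀ j, 1 ≤ k j)
    (hk2 : ∀ j, k j + 2 ≤ p) (hc : ∀ j, ¬ (p : ℤ) ∣ c j) (hd : ∀ j, ¬ (p : ℤ) ∣ d j)
    (hη : ∀ j, π ^ (k j + 1) ∣ (η j : R) - c j * (1 + d j * π ^ k j))
    (e : Fin n → ℤ) (hv : ∃ v : Rˣ, ∏ j, η j ^ e j = v ^ p) : ∀ j, (p : ℤ) ∣ e j := by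
  obtain ⟨v, hv⟩ := hv
  obtain ⟨M, hM⟩ := S.pow_int (v : R)
  refine S.dvd_of_congr η k c d hk hk1 hk2 hc hd hη e M ?_
  rw [hv]
  simpa using hM

end LevelSetting

end Fermat.Agent.S11
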