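import Mathlib.NumberTheory.NumberField.Units.DirichletTheorem
import Mathlib.NumberTheory.NumberField.Cyclotomic.Embeddings
import Mathlib.NumberTheory.NumberField.Cyclotomic.Basic
import Mathlib.LinearAlgebra.FreeModule.ModN
import Mathlib.LinearAlgebra.Dimension.Constructions
import Mathlib.LinearAlgebra.FiniteDimensional.Lemmas
import Mathlib.Tactic

/-!
# Units modulo `p`-th powers in a number field (consequence of Dirichlet's unit theorem)

For a number field `K` and a prime `p`, the `𝔽_p`-vector space `E / E ^ p` (`E = (𝓞 K)ˣ`) has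
dimension at most `rank K + 1`.  Hence any family of `rank K + 1` units which is independent
modulo `p`-th powers generates `E` modulo `p`-th powers:
`exists_eq_prod_mul_pow_of_indep`.

For the `p`-th cyclotomic field, `rank K + 1 = (p - 1) / 2`: `rank_add_one_cyclotomic`.
-/

set_option autoImplicit false

namespace Fermat.Agent.S11

open NumberField NumberField.Units Module

section General

variable {K : Type*} [Field K] (p : ℕ)

/-- The quotient `E / E ^ p`, written additively, as an `𝔽_p`-vector space. -/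
abbrev UnitsModPow (K : Type*) [Field K] (p : ℕ) : Type _ := ModN (Additive (𝓞 K)ˣ) p

/-- The class of a unit in `E / E ^ p`. -/
noncomputable def unitClass (u : (𝓞 K)ˣ) : UnitsModPow K p := ModN.mkQ p (Additive.ofMul u)

lemma unitClass_mul (u v : (𝓞 K)ˣ) : unitClass p (u * v) = unitClass p u + unitClass p v := by
  simp [unitClass]

lemma unitClass_zpow (u : (𝓞 K)ˣ) (e : ℤ) : unitClass p (u ^ e) = e • unitClass p u := by
  simp [unitClass]

lemma unitClass_zpow' (u : (𝓞 K)ˣ) (e : ℤ) :
    unitClass p (u ^ e) = (e : ZMod p) • unitClass p u := by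
  rw [unitClass_zpow, Int.cast_smul_eq_zsmul]

lemma unitClass_prod {ι : Type*} (s : Finset ι) (f : ι → (𝓞 K)ˣ) :
    unitClass p (∏ i ∈ s, f i) = ∑ i ∈ s, unitClass p (f i) := by
  simp [unitClass]

lemma unitClass_surjective : Function.Surjective (unitClass (K := K) p) := by
  intro x
  obtain ⟨g, rfl⟩ := QuotientAddGroup.mk_surjective x
  exact ⟨Additive.toMul g, rfl⟩

lemma unitClass_eq_zero_iff (u : (𝓞 K)ˣ) : unitClass p u = 0 ↔ ∃ v : (𝓞 K)ˣ, u = v ^ p := by
  change (Submodule.Quotient.mk (Additive.ofMul u) : UnitsModPow K p) = 0 ↔ _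
  rw [Submodule.Quotient.mk_eq_zero, LinearMap.mem_range]
  constructor
  · rintro ⟨v, hv⟩
    refine ⟨Additive.toMul v, ?_⟩
    have := congrArg Additive.toMul hv
    simpa using this.symm
  · rintro ⟨v, rfl⟩
    exact ⟨Additive.ofMul v, by simp⟩

lemma unitClass_eq_iff (u w : (𝓞 K)ˣ) :
    unitClass p u = unitClass p w ↔ ∃ v : (𝓞 K)ˣ, u = w * v ^ p := by
  have : unitClass p u = unitClass p w ↔ unitClass p (u * w⁻¹) = 0 := by
    rw [unitClass_mul, ← zpow_neg_one, unitClass_zpow]
    constructor
    · intro h; rw [h]; simp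
    · intro h
      have := congrArg (· + unitClass p w) h
      simpa using this
  rw [this, unitClass_eq_zero_iff]
  constructor
  · rintro ⟨v, hv⟩
    exact ⟨v, by rw [← hv, mul_comm u, mul_inv_cancel_left]⟩
  · rintro ⟨v, hv⟩
    exact ⟨v, by rw [hv, mul_comm w, mul_inv_cancel_right]⟩

variable [NumberField K] [hp : Fact p.Prime]

/-- The spanning family of `E / E ^ p`: a generator of the torsion, and a fundamental system. -/
noncomputable def unitSpanning : Option (Fin (rank K)) → UnitsModPow K p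
  | none => unitClass p ((IsCyclic.exists_generator (α := torsion K)).choose : (𝓞 K)ˣ)
  | some i => unitClass p (fundSystem K i)

lemma span_unitSpanning : Submodule.span (ZMod p) (Set.range (unitSpanning (K := K) p)) = ⊤ := by
  rw [eq_top_iff]
  rintro x -
  obtain ⟨u, rfl⟩ := unitClass_surjective p x
  obtain ⟨⟨τ, e⟩, hu, -⟩ := exist_unique_eq_mul_prod K u
  have hgen := (IsCyclic.exists_generator (α := torsion K)).choose_spec
  obtain ⟨a, ha⟩ := Subgroup.mem_zpowers_iff.mp (hgen τ)
  have hτ : (τ : (𝓞 K)ˣ) =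
      ((IsCyclic.exists_generator (α := torsion K)).choose : (𝓞 K)ˣ) ^ a := by
    rw [← ha]; simp
  rw [hu]
  simp only
  rw [unitClass_mul, unitClass_prod, hτ, unitClass_zpow']
  refine Submodule.add_mem _ (Submodule.smul_mem _ _ (Submodule.subset_span ⟨none, rfl⟩)) ?_
  refine Submodule.sum_mem _ fun i _ => ?_
  rw [unitClass_zpow']
  exact Submodule.smul_mem _ _ (Submodule.subset_span ⟨some i, rfl⟩)

instance : Module.Finite (ZMod p) (UnitsModPow K p) :=
  Module.Finite.of_fg_top <| by
    rw [← span_unitSpanning (K := K) p]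
    exact Submodule.fg_span (Set.finite_range _)

lemma finrank_unitsModPow_le : finrank (ZMod p) (UnitsModPow K p) ≤ rank K + 1 := by
  have h := finrank_range_le_card (R := ZMod p) (unitSpanning (K := K) p)
  rw [Set.finrank, span_unitSpanning, finrank_top] at h
  simpa using h

variable {p}

/-- **Generation modulo `p`-th powers.**  If `η : Fin n → E` with `n = rank K + 1` is independent
modulo `p`-th powers, then every unit is a product of powers of the `η j` times a `p`-th power. -/
theorem exists_eq_prod_mul_pow_of_indep {n : ℕ} (hn : n = rank K + 1) (η : Fin n → (𝓞 K)ˣ)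
    (hindep : ∀ e : Fin n → ℤ, (∃ v : (𝓞 K)ˣ, ∏ j, η j ^ e j = v ^ p) → ∀ j, (p : ℤ) ∣ e j)
    (u : (𝓞 K)ˣ) : ∃ (e : Fin n → ℤ) (v : (𝓞 K)ˣ), u = (∏ j, η j ^ e j) * v ^ p := by
  have hli : LinearIndependent (ZMod p) (fun j => unitClass p (η j)) := by
    rw [Fintype.linearIndependent_iff]
    intro g hg j
    have h1 : unitClass p (∏ j, η j ^ ((g j).cast : ℤ)) = 0 := by
      rw [unitClass_prod, ← hg]
      refine Finset.sum_congr rfl fun i _ => ?_
      rw [unitClass_zpow', ZMod.intCast_cast, ZMod.cast_id', id]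
    have h2 := hindep _ ((unitClass_eq_zero_iff p _).mp h1) j
    have h3 : (((g j).cast : ℤ) : ZMod p) = 0 := (ZMod.intCast_zmod_eq_zero_iff_dvd _ p).mpr h2
    rwa [ZMod.intCast_cast, ZMod.cast_id', id] at h3
  have hcard : Fintype.card (Fin n) = finrank (ZMod p) (UnitsModPow K p) := by
    apply le_antisymm hli.fintype_card_le_finrank
    rw [Fintype.card_fin, hn]
    exact finrank_unitsModPow_le p
  have hspan := hli.span_eq_top_of_card_eq_finrank' hcard
  have hu : unitClass p u ∈ Submodule.span (ZMod p) (Set.range fun j => unitClass p (η j)) := by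
    rw [hspan]; trivial
  obtain ⟨g, hg⟩ := (Submodule.mem_span_range_iff_exists_fun (ZMod p)).mp hu
  have h1 : unitClass p u = unitClass p (∏ j, η j ^ ((g j).cast : ℤ)) := by
    rw [unitClass_prod, ← hg]
    refine Finset.sum_congr rfl fun i _ => ?_
    rw [unitClass_zpow', ZMod.intCast_cast, ZMod.cast_id', id]
  obtain ⟨v, hv⟩ := (unitClass_eq_iff p _ _).mp h1
  exact ⟨fun j => ((g j).cast : ℤ), v, hv⟩

end General

section Cyclotomic

variable {p : ℕ} [hp : Fact p.Prime] {K : Type*} [Field K] [NumberField K]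
  [IsCyclotomicExtension {p} ℚ K]

/-- In the `p`-th cyclotomic field (`p` an odd prime), `rank K + 1 = (p - 1) / 2`. -/
lemma rank_add_one_cyclotomic (hp2 : p ≠ 2) : rank K + 1 = (p - 1) / 2 := by
  have h2 : 2 < p := lt_of_le_of_ne hp.out.two_le (Ne.symm hp2)
  have hcard : Fintype.card (InfinitePlace K) = (p - 1) / 2 := by
    rw [InfinitePlace.card_eq_nrRealPlaces_add_nrComplexPlaces,
      IsCyclotomicExtension.Rat.nrRealPlaces_eq_zero (n := p) K h2, zero_add,
      IsCyclotomicExtension.Rat.nrComplexPlaces_eq_totient_div_two (n := p),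
      Nat.totient_prime hp.out]
  have hpos : 0 < (p - 1) / 2 := by
    have : 3 ≤ p := h2
    omega
  rw [rank, hcard]
  omega

/-- **Generation modulo `p`-th powers**, cyclotomic version. -/
theorem exists_eq_prod_mul_pow_of_indep_cyclotomic (hp2 : p ≠ 2)
    (η : Fin ((p - 1) / 2) → (𝓞 K)ˣ)
    (hindep : ∀ e : Fin ((p - 1) / 2) → ℤ,
      (∃ v : (𝓞 K)ˣ, ∏ j, η j ^ e j = v ^ p) → ∀ j, (p : ℤ) ∣ e j)
    (u : (𝓞 K)ˣ) :
    ∃ (e : Fin ((p - 1) / 2) → ℤ) (v : (𝓞 K)ˣ), u = (∏ j, η j ^ e j) * v ^ p :=
  exists_eq_prod_mul_pow_of_indep (rank_add_one_cyclotomic (K := K) hp2).symm η hindep u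

end Cyclotomic

end Fermat.Agent.S11
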