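import Mathlib.NumberTheory.NumberField.Cyclotomic.Ideal
import Mathlib.RingTheory.RootsOfUnity.CyclotomicUnits
import Fermat.Agent.S11.KummerLevels
import Fermat.Agent.S11.UnitRank
import Fermat.Agent.S11.Setting

/-!
# Kummer's lemma from unit data, for the ring of integers of a cyclotomic field

`kummer_lemma_of_unitData`: let `K` be the `p`-th cyclotomic field (`p` an odd prime),
`λ = ζ - 1`.  Suppose we are given `(p - 1) / 2` units `η j` with
`η j ≡ c j * (1 + d j * λ ^ (k j))  mod λ ^ (k j + 1)`, with pairwise distinct levels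
`1 ≤ k j ≤ p - 2` and integers `c j`, `d j` prime to `p`.  Then every unit of `𝓞 K` which is
congruent to a rational integer modulo `p` is a `p`-th power (Kummer's lemma).
-/

set_option autoImplicit false

namespace Fermat.Agent.S11

open NumberField Polynomial Finset

section

variable {p : ℕ} [hp : Fact p.Prime] {K : Type*} [Field K] [NumberField K]
  [IsCyclotomicExtension {p} ℚ K] {ζ : K} (hζ : IsPrimitiveRoot ζ p)

include hζ in
/-- `p`-th powers are congruent to rational integers modulo `p`. -/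
lemma exists_int_pow_sub_dvd_of_cyclotomic (x : 𝓞 K) : ∃ n : ℤ, (p : 𝓞 K) ∣ x ^ p - n := by
  have hroot : IsPrimitiveRoot hζ.toInteger p := hζ.toInteger_isPrimitiveRoot
  have hassoc : Associated ((hζ.toInteger - 1) ^ (p - 1)) (p : 𝓞 K) :=
    IsCyclotomicExtension.Rat.associated_zeta_sub_one_pow_prime p hζ
  obtain ⟨n, hn⟩ := exists_int_sub_dvd hζ x
  refine ⟨n ^ p, ?_⟩
  push_cast
  rw [hroot.pow_sub_pow_eq_prod_sub_mul x (n : 𝓞 K) hp.out.pos]
  have h1 : ∀ η ∈ nthRootsFinset p (1 : 𝓞 K), (hζ.toInteger - 1) ∣ x - η * n := by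
    intro η hη
    have h2 : x - η * n = (x - n) - (η - 1) * n := by ring
    rw [h2]
    refine dvd_sub hn (Dvd.dvd.mul_right ?_ _)
    by_cases h1 : η = 1
    · simp [h1]
    · exact (hroot.nthRootsFinset_pairwise_associated_sub_one_sub_of_prime hp.out hη
        ((mem_nthRootsFinset hp.out.pos 1).2 (one_pow p)) h1).dvd
  have h3 : (hζ.toInteger - 1) ^ p ∣ ∏ η ∈ nthRootsFinset p (1 : 𝓞 K), (x - η * n) := by
    have := Finset.prod_dvd_prod_of_dvd (s := nthRootsFinset p (1 : 𝓞 K))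
      (fun _ => hζ.toInteger - 1) (fun η => x - η * (n : 𝓞 K)) h1
    simpa [Finset.prod_const, hroot.card_nthRootsFinset] using this
  refine dvd_trans ?_ h3
  have h4 : (hζ.toInteger - 1) ^ p = (hζ.toInteger - 1) ^ (p - 1) * (hζ.toInteger - 1) := by
    rw [← pow_succ]
    congr 1
    have := hp.out.pos
    omega
  rw [h4]
  exact Dvd.dvd.mul_right hassoc.symm.dvd _

/-- The level setting for `𝓞 K`. -/
theorem levelSetting (hp2 : p ≠ 2) : LevelSetting p (hζ.toInteger - 1) where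
  prime := hp.out
  pi_prime := hζ.zeta_sub_one_prime'
  assoc := IsCyclotomicExtension.Rat.associated_zeta_sub_one_pow_prime p hζ
  int_dvd := fun n hn => (lambda_dvd_intCast_iff hζ hp2 n).1 hn
  pow_int := exists_int_pow_sub_dvd_of_cyclotomic hζ

/-- **Kummer's lemma from unit data.** -/
theorem kummer_lemma_of_unitData (hp2 : p ≠ 2)
    (η : Fin ((p - 1) / 2) → (𝓞 K)ˣ) (k : Fin ((p - 1) / 2) → ℕ)
    (c d : Fin ((p - 1) / 2) → ℤ)
    (hk : Function.Injective k) (hk1 : ∀ j, 1 ≤ k j) (hk2 : ∀ j, k j + 2 ≤ p)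
    (hc : ∀ j, ¬ (p : ℤ) ∣ c j) (hd : ∀ j, ¬ (p : ℤ) ∣ d j)
    (hη : ∀ j, (hζ.toInteger - 1) ^ (k j + 1) ∣
      (η j : 𝓞 K) - c j * (1 + d j * (hζ.toInteger - 1) ^ k j))
    (u : (𝓞 K)ˣ) (hcong : ∃ n : ℤ, (p : 𝓞 K) ∣ (u : 𝓞 K) - n) : ∃ v : (𝓞 K)ˣ, u = v ^ p := by
  have S := levelSetting hζ hp2
  refine S.kummer_of_generation η k c d hk hk1 hk2 hc hd hη ?_ u hcong
  exact exists_eq_prod_mul_pow_of_indep_cyclotomic hp2 η
    (fun e hv => S.indep_of_levels η k c d hk hk1 hk2 hc hd hη e hv)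

end

end Fermat.Agent.S11
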