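import Fermat.Agent.S11.PIDSeven
import Fermat.Agent.S11.PIDEleven
import Fermat.Agent.S11.PIDThirteen

set_option autoImplicit false

open NumberField

namespace Fermat.Agent.S11.PID

/-- The ring of integers of the `p`-th cyclotomic field is a principal ideal domain for
`p ∈ {3, 5, 7, 11, 13}`. -/
theorem pid_of_mem {p : ℕ} (hp : p = 3 ∨ p = 5 ∨ p = 7 ∨ p = 11 ∨ p = 13)
    (K : Type*) [Field K] [NumberField K] [IsCyclotomicExtension {p} ℚ K] :
    IsPrincipalIdealRing (𝓞 K) := by
  rcases hp with rfl | rfl | rfl | rfl | rfl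
  · exact IsCyclotomicExtension.Rat.three_pid K
  · exact IsCyclotomicExtension.Rat.five_pid K
  · exact pid_seven K
  · exact pid_eleven K
  · exact pid_thirteen K

end Fermat.Agent.S11.PID
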