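import Mathlib

set_option autoImplicit false
set_option linter.style.haveILetI false

open NumberField Polynomial InfinitePlace Nat Real Ideal IsCyclotomicExtension.Rat

namespace Fermat.Agent.S11.PID

section generic

variable (p : ℕ) [hp : Fact p.Prime] (K : Type*) [Field K] [NumberField K]
  [hK : IsCyclotomicExtension {p} ℚ K]

/-- The prime above `p` is principal. -/
theorem exists_primesOver_self_isPrincipal :
    ∃ P ∈ primesOver (span {(p : ℤ)}) (𝓞 K), Submodule.IsPrincipal P := by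
  obtain ⟨⟨P, hP1, hP2⟩⟩ := (span {(p : ℤ)}).nonempty_primesOver (S := 𝓞 K)
  refine ⟨P, ⟨hP1, hP2⟩, ?_⟩
  rw [eq_span_zeta_sub_one_of_liesOver' p K (IsCyclotomicExtension.zeta_spec p ℚ K) P]
  exact ⟨⟨_, rfl⟩⟩

/-- For a prime `q ≠ p`, every prime above `q` has large norm as soon as the order of `q`
modulo `p` is large. -/
theorem exists_primesOver_lt_pow (q : ℕ) [hq : Fact q.Prime] (hqp : q ≠ p) (B k : ℕ)
    (hk : ∀ j < k, 0 < j → (q : ZMod p) ^ j ≠ 1) (hB : B < q ^ k) :
    ∃ P ∈ primesOver (span {(q : ℤ)}) (𝓞 K), B < q ^ P.inertiaDeg ℤ := by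
  obtain ⟨⟨P, hP1, hP2⟩⟩ := (span {(q : ℤ)}).nonempty_primesOver (S := 𝓞 K)
  refine ⟨P, ⟨hP1, hP2⟩, ?_⟩
  haveI : NeZero p := ⟨hp.out.ne_zero⟩
  have hndvd : ¬ q ∣ p := fun h => hqp ((Nat.prime_dvd_prime_iff_eq hq.out hp.out).1 h)
  rw [inertiaDeg_eq_of_not_dvd q K P hndvd]
  refine lt_of_lt_of_le hB (Nat.pow_le_pow_right hq.out.pos ?_)
  by_contra hlt
  rw [not_le] at hlt
  have hpos : 0 < orderOf (q : ZMod p) := by
    rw [orderOf_pos_iff]
    have hunit : IsUnit (q : ZMod p) := by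
      rw [ZMod.isUnit_iff_coprime]
      exact (Nat.coprime_primes hq.out hp.out).2 hqp
    exact hunit.isOfFinOrder
  exact hk _ hlt hpos (pow_orderOf_eq_one _)

/-- The relation satisfied by the chosen primitive root in the ring of integers. -/
theorem zeta_geom_sum_eq_zero :
    ∑ i ∈ Finset.range p, (IsCyclotomicExtension.zeta_spec p ℚ K).toInteger ^ i = 0 :=
  (IsCyclotomicExtension.zeta_spec p ℚ K).toInteger_isPrimitiveRoot.geom_sum_eq_zero
    hp.out.one_lt

/-- Kummer-Dedekind for a prime given by a monic irreducible factor of the cyclotomic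
polynomial modulo `q`, together with an explicit generator. -/
theorem exists_primesOver_isPrincipal_of_factor (q : ℕ) [hq : Fact q.Prime] (Q : ℤ[X])
    (hQirr : Irreducible (Q.map (Int.castRingHom (ZMod q))))
    (hQmonic : (Q.map (Int.castRingHom (ZMod q))).Monic)
    (hQdvd : Q.map (Int.castRingHom (ZMod q)) ∣ (cyclotomic p ℤ).map (Int.castRingHom (ZMod q)))
    (α β γ u v : 𝓞 K)
    (h1 : α = (q : 𝓞 K) * u +
      (aeval (IsCyclotomicExtension.zeta_spec p ℚ K).toInteger Q) * v)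
    (h2 : α * β = (q : 𝓞 K))
    (h3 : α * γ = aeval (IsCyclotomicExtension.zeta_spec p ℚ K).toInteger Q) :
    ∃ P ∈ primesOver (span {(q : ℤ)}) (𝓞 K), Submodule.IsPrincipal P := by
  haveI : NeZero p := ⟨hp.out.ne_zero⟩
  set ζ := (IsCyclotomicExtension.zeta_spec p ℚ K).toInteger with hζ
  have hexp : ¬ q ∣ RingOfIntegers.exponent ζ := by
    rw [RingOfIntegers.exponent_eq_one_iff.mpr <|
      adjoin_singleton_eq_top (IsCyclotomicExtension.zeta_spec p ℚ K)]
    exact hq.out.not_dvd_one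
  have hmin : minpoly ℤ ζ = cyclotomic p ℤ := by
    rw [← RingOfIntegers.minpoly_coe ζ,
      cyclotomic_eq_minpoly (IsCyclotomicExtension.zeta_spec p ℚ K) (NeZero.pos p)]
    rfl
  have hQ : Q.map (Int.castRingHom (ZMod q)) ∈ RingOfIntegers.monicFactorsMod ζ q := by
    rw [Multiset.mem_toFinset, Polynomial.mem_normalizedFactors_iff
      (map_monic_ne_zero (minpoly.monic ζ.isIntegral))]
    refine ⟨hQirr, hQmonic, ?_⟩
    rw [hmin]
    exact hQdvd
  have hspan := NumberField.Ideal.primesOverSpanEquivMonicFactorsMod_symm_apply_eq_span hexp hQ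
  have hmem := ((NumberField.Ideal.primesOverSpanEquivMonicFactorsMod hexp).symm
    ⟨_, hQ⟩).2
  rw [hspan] at hmem
  refine ⟨_, hmem, ?_⟩
  have : span {(q : 𝓞 K), aeval ζ Q} = span {α} := by
    apply le_antisymm
    · rw [Ideal.span_le]
      rintro x (rfl | rfl)
      · exact Ideal.mem_span_singleton.2 ⟨β, h2.symm⟩
      · exact Ideal.mem_span_singleton.2 ⟨γ, h3.symm⟩
    · rw [Ideal.span_singleton_le_iff_mem, Ideal.mem_span_pair]
      exact ⟨u, v, by rw [h1]; ring⟩
  rw [this]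
  exact ⟨⟨α, rfl⟩⟩

/-- Kummer-Dedekind for a degree one prime, together with an explicit generator. -/
theorem exists_primesOver_isPrincipal_of_data (q : ℕ) [hq : Fact q.Prime] (r : ℤ)
    (hr : ∑ i ∈ Finset.range p, (r : ZMod q) ^ i = 0)
    (α β γ D : 𝓞 K) (m : ℤ)
    (h1 : α = (q : 𝓞 K) * (m : 𝓞 K) +
      ((IsCyclotomicExtension.zeta_spec p ℚ K).toInteger - (r : 𝓞 K)) * D)
    (h2 : α * β = (q : 𝓞 K))
    (h3 : α * γ = (IsCyclotomicExtension.zeta_spec p ℚ K).toInteger - (r : 𝓞 K)) :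
    ∃ P ∈ primesOver (span {(q : ℤ)}) (𝓞 K), Submodule.IsPrincipal P := by
  have hmap : (X - C r : ℤ[X]).map (Int.castRingHom (ZMod q)) = X - C (r : ZMod q) := by
    simp
  have haeval : aeval (IsCyclotomicExtension.zeta_spec p ℚ K).toInteger (X - C r : ℤ[X]) =
      (IsCyclotomicExtension.zeta_spec p ℚ K).toInteger - (r : 𝓞 K) := by simp
  refine exists_primesOver_isPrincipal_of_factor p K q (X - C r) ?_ ?_ ?_ α β γ m D ?_ h2 ?_
  · rw [hmap]
    exact irreducible_X_sub_C _
  · rw [hmap]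
    exact monic_X_sub_C _
  · rw [hmap, dvd_iff_isRoot, map_cyclotomic, IsRoot.def, cyclotomic_prime, eval_finsetSum]
    simpa using hr
  · rw [haeval]
    exact h1
  · rw [haeval]
    exact h3

end generic

theorem four_div_pi_lt : (4 : ℝ) / π < 1.2733 := by
  rw [div_lt_iff₀ Real.pi_pos]
  have := Real.pi_gt_d4
  linarith

theorem four_div_pi_pos : (0 : ℝ) < 4 / π := by positivity

end Fermat.Agent.S11.PID
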